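import Mathlib

/-!
# Functions on `C ×ₖ V` for a proper integral curve over an algebraically closed field

`Γ(T, V) → Γ(C ×ₖ T, pr⁻¹ V)` is bijective.
-/

set_option autoImplicit false

universe u

open CategoryTheory CategoryTheory.Limits AlgebraicGeometry TopologicalSpace Opposite

noncomputable section

namespace Fermat.Agent.Row24

/-- The global functions of a proper integral scheme over an algebraically closed field. -/
theorem bijective_appTop_of_isAlgClosed {k : Type u} [Field k] [IsAlgClosed k] {C : Scheme.{u}}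
    (c : C ⟶ Spec (CommRingCat.of k)) [IsProper c] [IsIntegral C] :
    Function.Bijective c.appTop := by
  let F : CommRingCat.of k ⟶ Γ(C, ⊤) := (Scheme.ΓSpecIso _).inv ≫ c.appTop
  have hF : Function.Bijective F := by
    let := (isField_of_universallyClosed k c).toField
    algebraize [F.hom]
    have : Module.Finite k Γ(C, ⊤) := by
      refine RingHom.finite_algebraMap.1 ?_
      exact RingHom.Finite.comp (finite_appTop_of_universallyClosed k c)
        (RingHom.Finite.of_surjective _
          (ConcreteCategory.bijective_of_isIso (Scheme.ΓSpecIso (CommRingCat.of k)).inv).2)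
    exact IsAlgClosed.algebraMap_bijective_of_isIntegral
  have h : (c.appTop : _ → _) = F ∘ (Scheme.ΓSpecIso (CommRingCat.of k)).hom := by
    funext x
    simp [F]
  rw [h]
  exact hF.comp (ConcreteCategory.bijective_of_isIso (Scheme.ΓSpecIso (CommRingCat.of k)).hom)

/-- A map between sections of sheaves of rings which is bijective on affine opens is bijective. -/
theorem bijective_app_of_affine {X Y : Scheme.{u}} (f : X ⟶ Y)
    (h : ∀ V : Y.Opens, IsAffineOpen V → Function.Bijective (f.app V)) (V : Y.Opens) :
    Function.Bijective (f.app V) := by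
  have hres : ∀ {W W' : Y.Opens} (i : W ⟶ W') (s : Γ(Y, W')),
      f.app W (Y.presheaf.map i.op s) =
        X.presheaf.map ((Opens.map f.base).map i).op (f.app W' s) := fun i s =>
    congr($(f.naturality i.op) s)
  have hinj : ∀ W : Y.Opens, Function.Injective (f.app W) := fun W s s' hs => by
    refine Y.IsSheaf.section_ext fun y hy => ?_
    obtain ⟨_, ⟨U, hU, rfl⟩, hyU, hUW⟩ := Y.isBasis_affineOpens.exists_subset_of_mem_open hy W.2
    refine ⟨U, hUW, hyU, (h U hU).1 ?_⟩
    rw [hres, hres, hs]
  refine ⟨hinj V, fun z => ?_⟩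
  let ι := {U : Y.Opens // IsAffineOpen U ∧ U ≤ V}
  let U : ι → Y.Opens := fun i => i.1
  choose s hs using fun i : ι => (h i.1 i.2.1).2
    (X.presheaf.map ((Opens.map f.base).map (homOfLE i.2.2)).op z)
  have hcompat : TopCat.Presheaf.IsCompatible Y.sheaf.1 U s := fun i j => by
    refine hinj _ ?_
    show f.app (U i ⊓ U j) (Y.presheaf.map (Opens.infLELeft (U i) (U j)).op (s i)) =
      f.app (U i ⊓ U j) (Y.presheaf.map (Opens.infLERight (U i) (U j)).op (s j))
    rw [hres, hres, hs i, hs j, ← CommRingCat.comp_apply, ← CommRingCat.comp_apply,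
      ← Functor.map_comp, ← Functor.map_comp]
    rfl
  have hcov : V ≤ iSup U := fun y hy => by
    obtain ⟨_, ⟨W, hW, rfl⟩, hyW, hWV⟩ := Y.isBasis_affineOpens.exists_subset_of_mem_open hy V.2
    exact Opens.mem_iSup.2 ⟨⟨W, hW, hWV⟩, hyW⟩
  obtain ⟨t, ht, -⟩ := Y.sheaf.existsUnique_gluing' U V (fun i => homOfLE i.2.2) hcov s hcompat
  refine ⟨t, X.IsSheaf.section_ext fun x hx => ?_⟩
  obtain ⟨i, hi⟩ := Opens.mem_iSup.1 (hcov hx)
  refine ⟨f ⁻¹ᵁ U i, fun x hx => i.2.2 hx, hi, ?_⟩
  have h1 := hres (homOfLE i.2.2) t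
  rw [show Y.presheaf.map (homOfLE i.2.2).op t = s i from ht i, hs i] at h1
  exact h1.symm

/-- **Functions on `C ×ₖ V` are the functions on `V`.** -/
theorem bijective_app_snd {k : Type u} [Field k] [IsAlgClosed k] {C T : Scheme.{u}}
    (c : C ⟶ Spec (CommRingCat.of k)) [IsProper c] [IsIntegral C]
    (t : T ⟶ Spec (CommRingCat.of k)) (V : T.Opens) :
    Function.Bijective ((pullback.snd c t).app V) := by
  refine bijective_app_of_affine _ (fun V hV => ?_) V
  have : CompactSpace C := QuasiCompact.compactSpace_of_compactSpace c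
  have : QuasiSeparatedSpace C := quasiSeparatedSpace_of_quasiSeparated c
  have H := IsPullback.of_hasPullback c t
  have hiso := isIso_pushoutSection_of_isQuasiSeparated_of_flat_right H (US := ⊤) (UT := V)
    (UX := ⊤) (UY := pullback.snd c t ⁻¹ᵁ V) le_top le_top (by simp) (isAffineOpen_top _) hV
    isCompact_univ isQuasiSeparated_univ
  have hpo := (isIso_pushoutSection_iff _ _ _ _).1 hiso
  have : IsIso (c.appLE ⊤ ⊤ le_top) := by
    rw [ConcreteCategory.isIso_iff_bijective]
    convert bijective_appTop_of_isAlgClosed c using 2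
    simp [Scheme.Hom.appLE]
  have := hpo.isIso_inr_of_isIso
  rw [← ConcreteCategory.isIso_iff_bijective, Scheme.Hom.app_eq_appLE]
  exact this

end Fermat.Agent.Row24

end
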