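import Mathlib

/-!
# Modules which are Zariski locally free of rank one are invertible

If `M` becomes isomorphic to the base ring on a family of basic localisations covering
`Spec R`, then `M` is an invertible module.
-/

universe u v

open TensorProduct

namespace Fermat.Agent.Row24

/-- A module with a partition of unity `∑ fᵢ(mᵢ) = 1` and the rank-one identity
`g x • y = g y • x` is invertible. -/
theorem moduleInvertible_of_swap {R : Type u} [CommRing R] {M : Type v} [AddCommGroup M]
    [Module R M] (hswap : ∀ (g : M →ₗ[R] R) (x y : M), g x • y = g y • x)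
    (hone : Ideal.span (Set.range fun p : (M →ₗ[R] R) × M => p.1 p.2) = ⊤) :
    Module.Invertible R M := by
  classical
  have h1 : (1 : R) ∈ LinearMap.range (contractLeft R M) := by
    have hle : Ideal.span (Set.range fun p : (M →ₗ[R] R) × M => p.1 p.2) ≤
        LinearMap.range (contractLeft R M) := by
      rw [Ideal.span_le]
      rintro _ ⟨p, rfl⟩
      exact ⟨p.1 ⊗ₜ p.2, contractLeft_apply _ _⟩
    exact hle (hone ▸ Submodule.mem_top)
  obtain ⟨t, ht⟩ := h1
  refine ⟨⟨Function.LeftInverse.injective (g := fun r => r • t) ?_,
    fun r => ⟨r • t, by rw [map_smul, ht, smul_eq_mul, mul_one]⟩⟩⟩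
  have key : ∀ z w : Module.Dual R M ⊗[R] M, contractLeft R M z • w = contractLeft R M w • z := by
    intro z w
    induction z using TensorProduct.induction_on with
    | zero => simp
    | add a b ha hb => rw [map_add, add_smul, smul_add, ha, hb]
    | tmul g y =>
      induction w using TensorProduct.induction_on with
      | zero => simp
      | add a b ha hb => rw [map_add, add_smul, smul_add, ha, hb]
      | tmul f m =>
        rw [contractLeft_apply, contractLeft_apply]
        have hfun : g y • f = f y • g := by
          apply LinearMap.ext
          intro z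
          have := congrArg f (hswap g y z)
          simp only [map_smul, smul_eq_mul] at this
          simp only [LinearMap.smul_apply, smul_eq_mul]
          rw [this, mul_comm]
        calc g y • f ⊗ₜ[R] m = (g y • f) ⊗ₜ[R] m := by rw [← TensorProduct.smul_tmul']
          _ = (f y • g) ⊗ₜ[R] m := by rw [hfun]
          _ = g ⊗ₜ[R] (f y • m) := TensorProduct.smul_tmul _ _ _
          _ = g ⊗ₜ[R] (f m • y) := by rw [hswap f y m]
          _ = f m • g ⊗ₜ[R] y := by rw [TensorProduct.tmul_smul]
  intro z
  show contractLeft R M z • t = z
  rw [key z t, ht, one_smul]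

/-- A module which is free of rank one on a Zariski cover is invertible. -/
theorem moduleInvertible_of_localizationSpan {R : Type u} [CommRing R] {M : Type v}
    [AddCommGroup M] [Module R M] (s : Set R) (hs : Ideal.span s = ⊤)
    (h : ∀ r ∈ s, Nonempty
      (LocalizedModule.Away r M ≃ₗ[Localization.Away r] Localization.Away r)) :
    Module.Invertible R M := by
  classical
  have : Module.FinitePresentation R M := by
    refine Module.FinitePresentation.of_localizationSpan s hs fun g => ?_
    obtain ⟨e⟩ := h g.1 g.2
    exact Module.FinitePresentation.of_equiv e.symm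
  refine moduleInvertible_of_swap ?_ ?_
  · intro g x y
    rw [← sub_eq_zero]
    set d := g x • y - g y • x with hd
    have hzero : ∀ r : s, ∃ n : ℕ, (r.1 ^ n) • d = 0 := by
      rintro ⟨r, hr⟩
      obtain ⟨e⟩ := h r hr
      let g' : LocalizedModule.Away r M →ₗ[Localization.Away r] Localization.Away r :=
        LinearMap.extendScalarsOfIsLocalization (Submonoid.powers r) _
          (IsLocalizedModule.map (Submonoid.powers r)
            (LocalizedModule.mkLinearMap (Submonoid.powers r) M)
            (Algebra.linearMap R (Localization.Away r)) g)
      have hg' : ∀ m : M, g' (LocalizedModule.mkLinearMap (Submonoid.powers r) M m) =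
          algebraMap R (Localization.Away r) (g m) := fun m =>
        IsLocalizedModule.map_apply (Submonoid.powers r)
          (LocalizedModule.mkLinearMap (Submonoid.powers r) M) _ g m
      have hd0 : LocalizedModule.mkLinearMap (Submonoid.powers r) M d = 0 := by
        simp only [hd, map_sub, map_smul]
        rw [← IsScalarTower.algebraMap_smul (Localization.Away r) (g x)
              (LocalizedModule.mkLinearMap (Submonoid.powers r) M y),
          ← IsScalarTower.algebraMap_smul (Localization.Away r) (g y)
              (LocalizedModule.mkLinearMap (Submonoid.powers r) M x), ← hg' x, ← hg' y]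
        set X := LocalizedModule.mkLinearMap (Submonoid.powers r) M x
        set Y := LocalizedModule.mkLinearMap (Submonoid.powers r) M y
        have hX : X = e X • e.symm 1 := by
          apply e.injective
          simp
        have hY : Y = e Y • e.symm 1 := by
          apply e.injective
          simp
        rw [hX, hY]
        simp only [map_smul, smul_smul, smul_eq_mul]
        rw [← sub_smul]
        have : e X * g' (e.symm 1) * e Y - e Y * g' (e.symm 1) * e X = 0 := by ring
        rw [this, zero_smul]
      obtain ⟨⟨_, n, rfl⟩, hn⟩ := (IsLocalizedModule.eq_zero_iff (Submonoid.powers r)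
        (LocalizedModule.mkLinearMap (Submonoid.powers r) M)).mp hd0
      exact ⟨n, hn⟩
    choose n hn using hzero
    have htop : Ideal.span (Set.range fun r : s => r.1 ^ n r) = ⊤ := by
      exact Ideal.span_range_pow_eq_top s hs n
    have hann : Ideal.span (Set.range fun r : s => r.1 ^ n r) ≤
        LinearMap.ker (LinearMap.toSpanSingleton R M d) := by
      rw [Ideal.span_le]
      rintro _ ⟨r, rfl⟩
      exact hn r
    have h1 : (1 : R) ∈ LinearMap.ker (LinearMap.toSpanSingleton R M d) :=
      hann (htop ▸ Submodule.mem_top)
    simpa using h1
  · rw [← Ideal.radical_eq_top, eq_top_iff, ← hs, Ideal.span_le]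
    intro r hr
    obtain ⟨e⟩ := h r hr
    obtain ⟨g, ⟨_, k, rfl⟩, hg⟩ := Module.FinitePresentation.exists_lift_of_isLocalizedModule
      (Submonoid.powers r) (Algebra.linearMap R (Localization.Away r))
      ((e.toLinearMap.restrictScalars R).comp (LocalizedModule.mkLinearMap (Submonoid.powers r) M))
    obtain ⟨⟨m, ⟨_, j, rfl⟩⟩, hm⟩ := IsLocalizedModule.surj (Submonoid.powers r)
      (LocalizedModule.mkLinearMap (Submonoid.powers r) M) (e.symm 1)
    have h2 : algebraMap R (Localization.Away r) (g m) =
        algebraMap R (Localization.Away r) (r ^ k * r ^ j) := by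
      have := DFunLike.congr_fun hg m
      simp only [LinearMap.comp_apply, Algebra.linearMap_apply] at this
      rw [this]
      simp only [LinearMap.smul_apply, LinearMap.comp_apply, LinearMap.coe_restrictScalars,
        LinearEquiv.coe_coe, ← hm, Submonoid.smul_def]
      rw [← IsScalarTower.algebraMap_smul (Localization.Away r) (r ^ j) (e.symm 1), map_smul,
        e.apply_symm_apply, IsScalarTower.algebraMap_smul, smul_smul, Algebra.smul_def, mul_one]
    obtain ⟨⟨_, l, rfl⟩, hl⟩ := (IsLocalization.eq_iff_exists (Submonoid.powers r) _).mp h2
    refine ⟨l + (k + j), ?_⟩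
    rw [pow_add, pow_add]
    simp only at hl
    rw [← hl]
    exact Ideal.mul_mem_left _ _ (Ideal.subset_span ⟨(g, m), rfl⟩)

end Fermat.Agent.Row24
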