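import Mathlib
import Fermat.Prelude.Def_AlgebraicGeometry_RelativePicardFunctor

/-!
# Invertible sheaves of modules: basic properties

Restriction form of `IsInvertible`, stability under isomorphism, locality, and the fact that an
invertible sheaf of modules is quasi-coherent.
-/

universe u

open CategoryTheory CategoryTheory.Limits AlgebraicGeometry TopologicalSpace

namespace Fermat.Agent.Row24

variable {X Y : Scheme.{u}}

/-- Invertibility is invariant under isomorphism. -/
theorem isInvertible_of_iso {M N : X.Modules} (e : M ≅ N) (hM : Scheme.Modules.IsInvertible M) :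
    Scheme.Modules.IsInvertible N := by
  refine ⟨fun x => ?_⟩
  obtain ⟨U, hx, ⟨eU⟩⟩ := hM.1 x
  exact ⟨U, hx, ⟨(Scheme.Modules.pullback U.ι).mapIso e.symm ≪≫ eU⟩⟩

/-- Invertibility phrased with the restriction functor to open subschemes. -/
theorem isInvertible_iff_restrict {M : X.Modules} :
    Scheme.Modules.IsInvertible M ↔ ∀ x : X, ∃ U : X.Opens, x ∈ U ∧
      Nonempty (M.restrict U.ι ≅ SheafOfModules.unit U.toScheme.ringCatSheaf) := by
  refine ⟨fun h x => ?_, fun h => ⟨fun x => ?_⟩⟩
  · obtain ⟨U, hx, ⟨e⟩⟩ := h.1 x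
    exact ⟨U, hx, ⟨(Scheme.Modules.restrictFunctorIsoPullback U.ι).app M ≪≫ e⟩⟩
  · obtain ⟨U, hx, ⟨e⟩⟩ := h x
    exact ⟨U, hx, ⟨((Scheme.Modules.restrictFunctorIsoPullback U.ι).app M).symm ≪≫ e⟩⟩

/-- An invertible module is trivial on some open neighbourhood inside any given one. -/
theorem exists_trivialisation_le {M : X.Modules} (hM : Scheme.Modules.IsInvertible M) {x : X}
    {W : X.Opens} (hx : x ∈ W) :
    ∃ U : X.Opens, x ∈ U ∧ U ≤ W ∧ IsAffineOpen U ∧
      Nonempty ((Scheme.Modules.pullback U.ι).obj M ≅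
        SheafOfModules.unit U.toScheme.ringCatSheaf) := by
  obtain ⟨V, hxV, ⟨e⟩⟩ := hM.1 x
  obtain ⟨U, hUaff, hxU, hUle⟩ :=
    Opens.isBasis_iff_nbhd.mp X.isBasis_affineOpens
      (show x ∈ (W ⊓ V : X.Opens) from ⟨hx, hxV⟩)
  refine ⟨U, hxU, le_trans hUle inf_le_left, hUaff, ⟨?_⟩⟩
  have hUV : U ≤ V := le_trans hUle inf_le_right
  exact (Scheme.Modules.pullbackCongr (X.homOfLE_ι hUV)).symm.app M ≪≫
    ((Scheme.Modules.pullbackComp _ _).app M).symm ≪≫
    (Scheme.Modules.pullback (X.homOfLE hUV)).mapIso e ≪≫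
    Scheme.Modules.pullbackUnitIso _

/-- Invertibility is local for jointly surjective families of open immersions. -/
theorem isInvertible_of_openCover (M : X.Modules) {ι : Type*} {W : ι → Scheme.{u}}
    (f : ∀ i, W i ⟶ X) [∀ i, IsOpenImmersion (f i)]
    (hcov : ∀ x : X, ∃ i, x ∈ (f i).opensRange)
    (h : ∀ i, Scheme.Modules.IsInvertible ((Scheme.Modules.pullback (f i)).obj M)) :
    Scheme.Modules.IsInvertible M := by
  refine ⟨fun x => ?_⟩
  obtain ⟨i, w, rfl⟩ := hcov x
  obtain ⟨V, hwV, ⟨e⟩⟩ := (h i).1 w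
  refine ⟨f i ''ᵁ V, ⟨w, hwV, rfl⟩, ⟨?_⟩⟩
  exact (Scheme.Modules.pullbackCongr ((f i).isoImage_inv_ι V)).symm.app M ≪≫
    ((Scheme.Modules.pullbackComp _ _).app M).symm ≪≫
    (Scheme.Modules.pullback ((f i).isoImage V).inv).mapIso
      (((Scheme.Modules.pullbackComp V.ι (f i)).app M).symm ≪≫ e) ≪≫
    Scheme.Modules.pullbackUnitIso _

/-- The structure sheaf has the tautological presentation. -/
noncomputable def presentationUnit {C : Type*} [Category C] {J : GrothendieckTopology C}
    {R : Sheaf J RingCat.{u}} [HasSheafify J AddCommGrpCat.{u}]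
    [J.WEqualsLocallyBijective AddCommGrpCat.{u}] :
    (SheafOfModules.unit R).Presentation :=
  letI e : SheafOfModules.free (R := R) PUnit.{u + 1} ≅ SheafOfModules.unit R :=
    coproductUniqueIso _
  SheafOfModules.Presentation.ofIsIso e.hom
    (SheafOfModules.presentationOfIsCokernelFree
      (0 : SheafOfModules.free (R := R) PEmpty.{u + 1} ⟶ SheafOfModules.free PUnit.{u + 1}) (𝟙 _)
      (by simp) (CokernelCofork.IsColimit.ofId _ rfl))

/-- A trivialisation on an open subscheme gives one on the over-site. -/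
noncomputable def overUnitIso {M : X.Modules} {U : X.Opens}
    (e : M.restrict U.ι ≅ SheafOfModules.unit U.toScheme.ringCatSheaf) :
    SheafOfModules.over M U ≅ SheafOfModules.unit (X.ringCatSheaf.over U) :=
  (Scheme.Modules.overEquiv U).fullyFaithfulFunctor.preimageIso
    ((Scheme.Modules.overFunctorEquiv U).app M ≪≫ e ≪≫
      (Scheme.Modules.restrictUnitIso U.ι).symm ≪≫
      ((Scheme.Modules.overFunctorEquiv U).app (SheafOfModules.unit X.ringCatSheaf)).symm)

/-- Invertible sheaves of modules are quasi-coherent. -/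
theorem isQuasicoherent_of_isInvertible {M : X.Modules} (hM : Scheme.Modules.IsInvertible M) :
    M.IsQuasicoherent := by
  choose U hxU hU using isInvertible_iff_restrict.mp hM
  refine SheafOfModules.QuasicoherentData.isQuasicoherent.{u} (M := M)
    { I := X
      X := U
      coversTop := ?_
      presentation := fun x => SheafOfModules.Presentation.ofIsIso (overUnitIso (hU x).some).inv
        presentationUnit }
  rw [Opens.coversTop_iff, IsOpenCover, eq_top_iff]
  exact fun x _ => Opens.mem_iSup.mpr ⟨x, hxU x⟩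

end Fermat.Agent.Row24
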