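import Mathlib

/-!
# Tilde commutes with base change along maps of affine schemes

`(Spec φ)^* (M~) ≅ (S ⊗[R] M)~`, obtained by uniqueness of left adjoints.
-/

universe u

open CategoryTheory CategoryTheory.Limits AlgebraicGeometry TopologicalSpace Opposite

namespace Fermat.Agent.Row24

variable {R S : CommRingCat.{u}} (φ : R ⟶ S)

/-- Global sections of a direct image along `Spec φ`: restriction of scalars. -/
noncomputable def specGammaPushforwardIso :
    Scheme.Modules.pushforward (Spec.map φ) ⋙ moduleSpecΓFunctor (R := R) ≅
      moduleSpecΓFunctor (R := S) ⋙ ModuleCat.restrictScalars φ.hom :=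
  (Functor.associator _ _ _).symm ≪≫
    Functor.isoWhiskerRight (pushforwardCompModulesSpecToSheafIso φ)
      (TopCat.Sheaf.forget _ _ ⋙ (evaluation _ _).obj (op ⊤)) ≪≫
    NatIso.ofComponents (fun M => Iso.refl _) (fun f => by simp; rfl)

/-- Inverse image of `M~` along `Spec φ` is the tilde of the base change. -/
noncomputable def tildePullbackNatIso :
    tilde.functor R ⋙ Scheme.Modules.pullback (Spec.map φ) ≅
      ModuleCat.extendScalars φ.hom ⋙ tilde.functor S :=
  (((tilde.adjunction (R := R)).comp
      (Scheme.Modules.pullbackPushforwardAdjunction (Spec.map φ))).ofNatIsoRight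
        (specGammaPushforwardIso φ)).leftAdjointUniq
    ((ModuleCat.extendRestrictScalarsAdj φ.hom).comp (tilde.adjunction (R := S)))

/-- Object form of `tildePullbackNatIso`. -/
noncomputable def tildePullbackIso (M : ModuleCat.{u} R) :
    (Scheme.Modules.pullback (Spec.map φ)).obj (tilde M) ≅
      tilde ((ModuleCat.extendScalars φ.hom).obj M) :=
  (tildePullbackNatIso φ).app M

/-- A quasi-coherent module on an affine scheme is the tilde of its global sections. -/
noncomputable def tildeGammaIso (M : (Spec R).Modules) [M.IsQuasicoherent] :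
    tilde (moduleSpecΓFunctor.obj M) ≅ M :=
  @asIso _ _ _ _ M.fromTildeΓ (Scheme.Modules.isIso_fromTildeΓ_of_isQuasicoherent M)

/-- Inverse image of a quasi-coherent module along a map of affine schemes. -/
noncomputable def pullbackSpecIso (M : (Spec R).Modules) [M.IsQuasicoherent] :
    (Scheme.Modules.pullback (Spec.map φ)).obj M ≅
      tilde ((ModuleCat.extendScalars φ.hom).obj (moduleSpecΓFunctor.obj M)) :=
  (Scheme.Modules.pullback (Spec.map φ)).mapIso (tildeGammaIso M).symm ≪≫ tildePullbackIso φ _

/-- Global sections of the inverse image of a quasi-coherent module: base change. -/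
noncomputable def gammaPullbackSpecIso (M : (Spec R).Modules) [M.IsQuasicoherent] :
    moduleSpecΓFunctor.obj ((Scheme.Modules.pullback (Spec.map φ)).obj M) ≅
      (ModuleCat.extendScalars φ.hom).obj (moduleSpecΓFunctor.obj M) :=
  moduleSpecΓFunctor.mapIso (pullbackSpecIso φ M) ≪≫ (tilde.toTildeΓNatIso.app _).symm

/-- Inverse images of quasi-coherent modules along maps of affine schemes are quasi-coherent. -/
theorem isQuasicoherent_pullbackSpec (M : (Spec R).Modules) [M.IsQuasicoherent] :
    ((Scheme.Modules.pullback (Spec.map φ)).obj M).IsQuasicoherent :=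
  (SheafOfModules.isQuasicoherent (Spec S).ringCatSheaf).prop_of_iso (pullbackSpecIso φ M).symm
    inferInstance

end Fermat.Agent.Row24
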