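import Mathlib
import Fermat.Agent.Row24.InvertibleModule
import Fermat.Agent.Row24.InvertibleSheaf
import Fermat.Agent.Row24.TildeBaseChange

/-!
# Invertible sheaves on affine schemes are invertible modules
-/

universe u

open CategoryTheory CategoryTheory.Limits AlgebraicGeometry TopologicalSpace TensorProduct

namespace Fermat.Agent.Row24

/-- Extension of scalars along `algebraMap` is the usual base change. -/
noncomputable def extendScalarsAlgIso {R : Type u} [CommRing R] {A : Type u} [CommRing A]
    (φ : R →+* A) (inst : Algebra R A) (h : inst = φ.toAlgebra) (M : ModuleCat.{u} R) :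
    (ModuleCat.extendScalars φ).obj M ≅
      (letI := inst; ModuleCat.of A (A ⊗[R] M)) := by
  subst h
  exact Iso.refl _

/-- Extension of scalars along the structure map of an algebra. -/
noncomputable def extendScalarsAlgebraMapIso {R : Type u} [CommRing R] (A : Type u) [CommRing A]
    [inst : Algebra R A] (M : ModuleCat.{u} R) :
    (ModuleCat.extendScalars (algebraMap R A)).obj M ≅ ModuleCat.of A (A ⊗[R] M) :=
  extendScalarsAlgIso (algebraMap R A) inst toAlgebra_algebraMap.symm M

variable {R : CommRingCat.{u}}

/-- The global sections of the structure sheaf. -/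
noncomputable def gammaUnitIso :
    moduleSpecΓFunctor.obj (SheafOfModules.unit (Spec R).ringCatSheaf) ≅ ModuleCat.of R R :=
  moduleSpecΓFunctor.mapIso (tildeSelf (R := R)).symm ≪≫
    (tilde.toTildeΓNatIso.app (ModuleCat.of R R)).symm

/-- The canonical map `Spec R_r ⟶ Spec R`. -/
noncomputable abbrev specAwayMap (r : R) : Spec (.of (Localization.Away r)) ⟶ Spec R :=
  Spec.map (CommRingCat.ofHom (algebraMap R (Localization.Away r)))

/-- An invertible sheaf on an affine scheme is trivial on basic opens around each point. -/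
theorem exists_trivialisation_specAway {M : (Spec R).Modules}
    (hM : Scheme.Modules.IsInvertible M) (x : PrimeSpectrum R) :
    ∃ r : R, x ∈ PrimeSpectrum.basicOpen r ∧
      Nonempty ((Scheme.Modules.pullback (specAwayMap r)).obj M ≅
        SheafOfModules.unit (Spec (.of (Localization.Away r))).ringCatSheaf) := by
  obtain ⟨U, hxU, ⟨e⟩⟩ := hM.1 x
  obtain ⟨_, ⟨r, rfl⟩, hxr, hrU⟩ :=
    Opens.isBasis_iff_nbhd.mp PrimeSpectrum.isBasis_basic_opens hxU
  refine ⟨r, hxr, ⟨?_⟩⟩
  have h : (basicOpenIsoSpecAway r).inv ≫ (Spec R).homOfLE hrU ≫ U.ι = specAwayMap r := by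
    rw [Scheme.homOfLE_ι, Iso.inv_comp_eq]
    exact (basicOpenIsoSpecAway_hom_SpecMap r).symm
  exact (Scheme.Modules.pullbackCongr ((Category.assoc _ _ _).trans h)).symm.app M ≪≫
    ((Scheme.Modules.pullbackComp _ U.ι).app M).symm ≪≫
    (Scheme.Modules.pullback _).mapIso e ≪≫ Scheme.Modules.pullbackUnitIso _

/-- Finitely many basic opens trivialise an invertible sheaf on an affine scheme. -/
theorem exists_finset_trivialisation {M : (Spec R).Modules}
    (hM : Scheme.Modules.IsInvertible M) :
    ∃ s : Finset R, Ideal.span (s : Set R) = ⊤ ∧ ∀ r ∈ s,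
      Nonempty ((Scheme.Modules.pullback (specAwayMap r)).obj M ≅
        SheafOfModules.unit (Spec (.of (Localization.Away r))).ringCatSheaf) := by
  set T : Set R := {r | Nonempty ((Scheme.Modules.pullback (specAwayMap r)).obj M ≅
    SheafOfModules.unit (Spec (.of (Localization.Away r))).ringCatSheaf)} with hT
  have htop : Ideal.span T = ⊤ := by
    by_contra hne
    obtain ⟨m, hm, hle⟩ := Ideal.exists_le_maximal _ hne
    obtain ⟨r, hxr, hr⟩ := exists_trivialisation_specAway hM ⟨m, hm.isPrime⟩
    exact hxr (hle (Ideal.subset_span hr))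
  obtain ⟨s, hsT, hs⟩ := Submodule.mem_span_finite_of_mem_span
    (htop ▸ Submodule.mem_top (x := (1 : R)) : (1 : R) ∈ Ideal.span T)
  exact ⟨s, (Ideal.eq_top_iff_one _).mpr hs, fun r hr => hsT hr⟩

/-- Global sections of an invertible sheaf on an affine scheme form an invertible module. -/
theorem moduleInvertible_gamma {M : (Spec R).Modules} (hM : Scheme.Modules.IsInvertible M) :
    Module.Invertible R (moduleSpecΓFunctor.obj M) := by
  have := isQuasicoherent_of_isInvertible hM
  obtain ⟨s, hs, h⟩ := exists_finset_trivialisation hM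
  refine moduleInvertible_of_localizationSpan (s : Set R) hs fun r hr => ?_
  obtain ⟨e⟩ := h r hr
  have e' : ModuleCat.of (Localization.Away r)
      (Localization.Away r ⊗[R] (moduleSpecΓFunctor.obj M : ModuleCat R)) ≅
      ModuleCat.of (Localization.Away r) (Localization.Away r) :=
    (extendScalarsAlgebraMapIso (Localization.Away r) (moduleSpecΓFunctor.obj M)).symm ≪≫
      (gammaPullbackSpecIso (CommRingCat.ofHom (algebraMap R (Localization.Away r))) M).symm ≪≫
      moduleSpecΓFunctor.mapIso e ≪≫ gammaUnitIso
  exact ⟨(IsLocalizedModule.isBaseChange (Submonoid.powers r) (Localization.Away r)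
    (LocalizedModule.mkLinearMap (Submonoid.powers r) _)).equiv.symm ≪≫ₗ e'.toLinearEquiv⟩

/-- The tilde of an invertible module is an invertible sheaf. -/
theorem isInvertible_tilde (M : ModuleCat.{u} R) [Module.Invertible R M] :
    Scheme.Modules.IsInvertible (tilde M) := by
  refine ⟨fun x => ?_⟩
  obtain ⟨s, hs, hfree⟩ := Module.Invertible.exists_finset_free_localization R M
  obtain ⟨r, hr, hxr⟩ : ∃ r ∈ s, x ∈ PrimeSpectrum.basicOpen r := by
    by_contra hne
    push Not at hne
    refine x.2.ne_top (top_le_iff.mp ?_)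
    rw [← hs, Ideal.span_le]
    intro r hr
    exact not_not.mp (hne r hr)
  have := hfree r hr
  obtain ⟨e⟩ := (Module.Invertible.free_iff_linearEquiv
    (R := Localization.Away r) (M := LocalizedModule.Away r M)).mp inferInstance
  let A : CommRingCat.{u} := .of (Localization.Away r)
  have e' : (ModuleCat.extendScalars (algebraMap R (Localization.Away r))).obj M ≅
      ModuleCat.of (Localization.Away r) (Localization.Away r) :=
    extendScalarsAlgebraMapIso (Localization.Away r) M ≪≫
      ((IsLocalizedModule.isBaseChange (Submonoid.powers r) (Localization.Away r)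
        (LocalizedModule.mkLinearMap (Submonoid.powers r) M)).equiv ≪≫ₗ e).toModuleIso
  refine ⟨PrimeSpectrum.basicOpen r, hxr, ⟨?_⟩⟩
  exact (Scheme.Modules.pullbackCongr (basicOpenIsoSpecAway_hom_SpecMap r)).symm.app (tilde M) ≪≫
    ((Scheme.Modules.pullbackComp _ (specAwayMap r)).app (tilde M)).symm ≪≫
    (Scheme.Modules.pullback _).mapIso
      (tildePullbackIso (CommRingCat.ofHom (algebraMap R (Localization.Away r))) M ≪≫
        (tilde.functor A).mapIso e' ≪≫ tildeSelf) ≪≫
    Scheme.Modules.pullbackUnitIso _

/-- Invertible sheaves on `Spec R` are the quasi-coherent sheaves with invertible global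
sections. -/
theorem isInvertible_iff_gamma {M : (Spec R).Modules} :
    Scheme.Modules.IsInvertible M ↔
      M.IsQuasicoherent ∧ Module.Invertible R (moduleSpecΓFunctor.obj M) := by
  refine ⟨fun h => ⟨isQuasicoherent_of_isInvertible h, moduleInvertible_gamma h⟩, ?_⟩
  rintro ⟨h, h'⟩
  have := h
  have := h'
  exact isInvertible_of_iso (tildeGammaIso M) (isInvertible_tilde _)

/-- Two quasi-coherent modules on an affine scheme are isomorphic iff their global sections
are. -/
theorem nonempty_iso_iff_gamma {M N : (Spec R).Modules} [M.IsQuasicoherent] [N.IsQuasicoherent] :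
    Nonempty (M ≅ N) ↔ Nonempty
      ((moduleSpecΓFunctor.obj M : ModuleCat R) ≅ moduleSpecΓFunctor.obj N) :=
  ⟨fun ⟨e⟩ => ⟨moduleSpecΓFunctor.mapIso e⟩, fun ⟨e⟩ =>
    ⟨(tildeGammaIso M).symm ≪≫ (tilde.functor R).mapIso e ≪≫ tildeGammaIso N⟩⟩

/-- An invertible sheaf on an affine scheme is trivial iff its global sections are free. -/
theorem nonempty_iso_unit_iff_free {M : (Spec R).Modules}
    (hM : Scheme.Modules.IsInvertible M) :
    Nonempty (M ≅ SheafOfModules.unit (Spec R).ringCatSheaf) ↔
      Module.Free R (moduleSpecΓFunctor.obj M) := by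
  have := isQuasicoherent_of_isInvertible hM
  have := moduleInvertible_gamma hM
  rw [Module.Invertible.free_iff_linearEquiv]
  refine ⟨fun ⟨e⟩ => ⟨(moduleSpecΓFunctor.mapIso e ≪≫ gammaUnitIso).toLinearEquiv⟩, fun ⟨e⟩ => ?_⟩
  exact ⟨(tildeGammaIso M).symm ≪≫
    (tilde.functor R).mapIso (e.toModuleIso : moduleSpecΓFunctor.obj M ≅ ModuleCat.of R R) ≪≫
    tildeSelf⟩

/-- Invertible sheaves on `Spec R` are trivial when the Picard group of `R` is trivial, for
example for a field or a local ring. -/
theorem nonempty_iso_unit_of_subsingleton_pic [Subsingleton (CommRing.Pic R)]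
    {M : (Spec R).Modules} (hM : Scheme.Modules.IsInvertible M) :
    Nonempty (M ≅ SheafOfModules.unit (Spec R).ringCatSheaf) := by
  have := moduleInvertible_gamma hM
  exact (nonempty_iso_unit_iff_free hM).mpr inferInstance

/-- The class in the Picard group of the ring of an invertible sheaf on an affine scheme. -/
noncomputable def picClass (M : (Spec R).Modules) (hM : Scheme.Modules.IsInvertible M) :
    CommRing.Pic R :=
  haveI := moduleInvertible_gamma hM
  CommRing.Pic.mk R (moduleSpecΓFunctor.obj M)

theorem picClass_eq_iff {M N : (Spec R).Modules} (hM : Scheme.Modules.IsInvertible M)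
    (hN : Scheme.Modules.IsInvertible N) :
    picClass M hM = picClass N hN ↔ Nonempty (M ≅ N) := by
  have := moduleInvertible_gamma hM
  have := moduleInvertible_gamma hN
  have := isQuasicoherent_of_isInvertible hM
  have := isQuasicoherent_of_isInvertible hN
  rw [nonempty_iso_iff_gamma, picClass, picClass, CommRing.Pic.mk_eq_mk_iff]
  exact ⟨fun ⟨e⟩ => ⟨e.toModuleIso⟩, fun ⟨e⟩ => ⟨e.toLinearEquiv⟩⟩

theorem exists_picClass_eq (P : CommRing.Pic R) :
    ∃ (M : (Spec R).Modules) (hM : Scheme.Modules.IsInvertible M), picClass M hM = P := by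
  refine ⟨tilde (ModuleCat.of R P.AsModule), isInvertible_tilde _, ?_⟩
  have := moduleInvertible_gamma (isInvertible_tilde (ModuleCat.of R P.AsModule))
  rw [picClass, CommRing.Pic.mk_eq_iff]
  exact ⟨(tilde.toTildeΓNatIso.app (ModuleCat.of R P.AsModule)).toLinearEquiv.symm⟩

end Fermat.Agent.Row24
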