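import Mathlib
import Fermat.Agent.Row24.AffineInvertible

/-!
# Sections of invertible and quasi-coherent modules over affine opens of a scheme
-/

universe u

open CategoryTheory CategoryTheory.Limits AlgebraicGeometry TopologicalSpace TensorProduct

namespace Fermat.Agent.Row24

variable {X Y : Scheme.{u}}

/-- Restriction along an open immersion preserves invertibility. -/
theorem isInvertible_restrict {M : X.Modules} (hM : Scheme.Modules.IsInvertible M) (f : Y ⟶ X)
    [IsOpenImmersion f] : Scheme.Modules.IsInvertible (M.restrict f) :=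
  isInvertible_of_iso ((Scheme.Modules.restrictFunctorIsoPullback f).app M).symm (hM.pullback f)

variable {U : X.Opens} (hU : IsAffineOpen U)

include hU in
theorem fromSpec_image_top_eq : hU.fromSpec ''ᵁ ⊤ = U := by
  rw [Scheme.Hom.image_top_eq_opensRange, hU.opensRange_fromSpec]

theorem fromSpec_appIso_top_inv (r : Γ(X, U)) :
    (hU.fromSpec.appIso ⊤).inv ((Scheme.ΓSpecIso Γ(X, U)).inv r) =
      X.presheaf.map (eqToHom (fromSpec_image_top_eq hU)).op r := by
  apply (ConcreteCategory.bijective_of_isIso (hU.fromSpec.appIso ⊤).hom).1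
  rw [Iso.inv_hom_id_apply]
  simp only [Scheme.Hom.appIso_hom']
  rw [← ConcreteCategory.comp_apply]
  congr 1
  rw [Scheme.Hom.map_appLE, Scheme.Hom.appLE, hU.fromSpec_app_self, Category.assoc,
    ← Functor.map_comp]
  rw [show (eqToHom hU.fromSpec_preimage_self).op ≫ _ = 𝟙 (Opposite.op (⊤ : (Spec Γ(X, U)).Opens))
    from Subsingleton.elim _ _, CategoryTheory.Functor.map_id, Category.comp_id]

/-- Global sections of the restriction to an affine open, as an abelian group. -/
noncomputable def gammaRestrictAddEquiv (M : X.Modules) :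
    (moduleSpecΓFunctor.obj (M.restrict hU.fromSpec) : ModuleCat Γ(X, U)) ≃+ Γ(M, U) :=
  (M.restrictAppIso hU.fromSpec ⊤ ≪≫
    M.presheaf.mapIso (eqToIso (fromSpec_image_top_eq hU)).op.symm).addCommGroupIsoToAddEquiv

theorem gammaRestrictAddEquiv_smul (M : X.Modules) (r : Γ(X, U))
    (x : Γ(M.restrict hU.fromSpec, ⊤)) :
    gammaRestrictAddEquiv hU M (r • x) = r • gammaRestrictAddEquiv hU M x := by
  change M.presheaf.map (eqToHom (fromSpec_image_top_eq hU).symm).op
      ((M.restrictAppIso hU.fromSpec ⊤).hom
        ((Spec Γ(X, U)).presheaf.map (𝟙 _) ((Scheme.ΓSpecIso Γ(X, U)).inv r) • x)) =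
    r • M.presheaf.map (eqToHom (fromSpec_image_top_eq hU).symm).op
      ((M.restrictAppIso hU.fromSpec ⊤).hom x)
  rw [CategoryTheory.Functor.map_id, CommRingCat.id_apply,
    Scheme.Modules.smul_restrictAppIso_hom_apply, Scheme.Modules.map_smul,
    fromSpec_appIso_top_inv, ← CommRingCat.comp_apply, ← Functor.map_comp, ← op_comp,
    eqToHom_trans, eqToHom_refl, op_id, CategoryTheory.Functor.map_id, CommRingCat.id_apply]

/-- Global sections of the restriction to an affine open `U` are the sections over `U`. -/
noncomputable def gammaRestrictEquiv (M : X.Modules) :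
    (moduleSpecΓFunctor.obj (M.restrict hU.fromSpec) : ModuleCat Γ(X, U)) ≃ₗ[Γ(X, U)] Γ(M, U) :=
  { gammaRestrictAddEquiv hU M with map_smul' := gammaRestrictAddEquiv_smul hU M }

include hU in
/-- Sections of an invertible sheaf over an affine open form an invertible module. -/
theorem moduleInvertible_sections {M : X.Modules} (hM : Scheme.Modules.IsInvertible M) :
    Module.Invertible Γ(X, U) Γ(M, U) := by
  have := moduleInvertible_gamma (isInvertible_restrict hM hU.fromSpec)
  exact Module.Invertible.congr (gammaRestrictEquiv hU M)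

include hU in
/-- An invertible sheaf is trivial on an affine open as soon as its module of sections there is
free. -/
theorem nonempty_restrict_iso_unit {M : X.Modules} (hM : Scheme.Modules.IsInvertible M)
    [Module.Free Γ(X, U) Γ(M, U)] :
    Nonempty ((Scheme.Modules.pullback U.ι).obj M ≅
      SheafOfModules.unit U.toScheme.ringCatSheaf) := by
  obtain ⟨e⟩ := (nonempty_iso_unit_iff_free (isInvertible_restrict hM hU.fromSpec)).mpr
    (Module.Free.of_equiv (gammaRestrictEquiv hU M).symm)
  exact ⟨(Scheme.Modules.pullbackCongr hU.isoSpec_hom_fromSpec).symm.app M ≪≫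
    ((Scheme.Modules.pullbackComp _ hU.fromSpec).app M).symm ≪≫
    (Scheme.Modules.pullback hU.isoSpec.hom).mapIso
      (((Scheme.Modules.restrictFunctorIsoPullback hU.fromSpec).app M).symm ≪≫ e) ≪≫
    Scheme.Modules.pullbackUnitIso _⟩

end Fermat.Agent.Row24
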