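import Fermat.Prelude.Def_AlgebraicGeometry_RelPicardAlgEquivZeroCut
import Mathlib.AlgebraicGeometry.Geometrically.Integral
import Mathlib.AlgebraicGeometry.Geometrically.Connected
import Mathlib.AlgebraicGeometry.AlgClosed.Basic

/-!
# The algebraically-trivial cut inside a representable cut

If a cut containing the fibrewise algebraically trivial bundles is represented by a scheme `D₀`,
then an open and closed geometrically integral subscheme of `D₀` through the zero point represents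
the algebraically trivial bundles themselves: the scheme itself is the family connecting each
bundle to the trivial one, and conversely an integral family maps into `D₀` with connected image.
-/

set_option autoImplicit false

noncomputable section

universe u

open CategoryTheory CategoryTheory.Limits AlgebraicGeometry AlgebraicGeometry.RelPicard
  NeronModelInfra GoodReductionJacobian

namespace Fermat.Agent.Row24

theorem baseChangeSnd_fst {R : Type u} [CommRing R] {C T T' : Scheme.{u}}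
    (c : C ⟶ Spec (CommRingCat.of R)) {t : T ⟶ Spec (CommRingCat.of R)}
    {t' : T' ⟶ Spec (CommRingCat.of R)} (s : SchemeHomOver t' t) :
    baseChangeSnd c s ≫ pullback.fst c t = pullback.fst c t' :=
  (pullback.lift_fst _ _ _).trans (Category.comp_id _)

theorem baseChangeSnd_snd {R : Type u} [CommRing R] {C T T' : Scheme.{u}}
    (c : C ⟶ Spec (CommRingCat.of R)) {t : T ⟶ Spec (CommRingCat.of R)}
    {t' : T' ⟶ Spec (CommRingCat.of R)} (s : SchemeHomOver t' t) :
    baseChangeSnd c s ≫ pullback.snd c t = pullback.snd c t' ≫ s.1 :=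
  pullback.lift_snd _ _ _

/-- Pulling back twice along morphisms with a given composite. -/
def pullbackIsoOfEq {X Y Z : Scheme.{u}} {f : X ⟶ Y} {g : Y ⟶ Z} {h : X ⟶ Z} (e : f ≫ g = h)
    (L : Z.Modules) :
    (Scheme.Modules.pullback f).obj ((Scheme.Modules.pullback g).obj L) ≅
      (Scheme.Modules.pullback h).obj L :=
  (Scheme.Modules.pullbackComp f g).app L ≪≫ (Scheme.Modules.pullbackCongr e).app L

/-- Pulling back along a morphism factoring through a trivialising one gives the unit. -/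
theorem nonempty_pullback_iso_unit {X Y Z : Scheme.{u}} {f : X ⟶ Y} {g : Y ⟶ Z} {h : X ⟶ Z}
    (e : f ≫ g = h) {L : Z.Modules}
    (hL : Nonempty ((Scheme.Modules.pullback g).obj L ≅ SheafOfModules.unit Y.ringCatSheaf)) :
    Nonempty ((Scheme.Modules.pullback h).obj L ≅ SheafOfModules.unit X.ringCatSheaf) :=
  ⟨(pullbackIsoOfEq e L).symm ≪≫ (Scheme.Modules.pullback f).mapIso hL.some ≪≫
    Scheme.Modules.pullbackUnitIso f⟩

variable {k : Type u} [Field k] {C : Scheme.{u}} {c : C ⟶ Spec (CommRingCat.of k)}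
  {ε : SchemeHomOver (𝟙 (Spec (CommRingCat.of k))) c}

/-- Two successive pullbacks of a rigidified bundle. -/
theorem nonempty_pullbackAlong_iso {T T' T'' : Scheme.{u}} {t : T ⟶ Spec (CommRingCat.of k)}
    {t' : T' ⟶ Spec (CommRingCat.of k)} {t'' : T'' ⟶ Spec (CommRingCat.of k)}
    (M : RigidifiedLineBundle c ε t) (ψ : SchemeHomOver t' t) (χ : SchemeHomOver t'' t')
    (θ : SchemeHomOver t'' t) (h : χ.1 ≫ ψ.1 = θ.1) :
    Nonempty (((M.pullbackAlong ψ).pullbackAlong χ).L ≅ (M.pullbackAlong θ).L) :=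
  ⟨pullbackIsoOfEq (by rw [baseChangeSnd_comp]; exact congrArg _ (Subtype.ext h)) M.L⟩

/-- A bundle pulled back from a geometrically integral family with a trivial member is fibrewise
algebraically trivial. -/
theorem fibrewiseAlgEquivZero_of_family {K : Type u} [Field K]
    (g : Spec (CommRingCat.of K) ⟶ Spec (CommRingCat.of k)) {T' : Scheme.{u}}
    {h : T' ⟶ Spec (CommRingCat.of K)} [LocallyOfFiniteType h] [GeometricallyIntegral h]
    {t' : T' ⟶ Spec (CommRingCat.of k)} (ht : h ≫ g = t') (L : (pullback c t').Modules)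
    (hL : L.IsInvertible) (t₀ : SchemeHomOver g t') (ht₀ : t₀.1 ≫ h = 𝟙 _)
    (e₀ : Nonempty ((Scheme.Modules.pullback (baseChangeSnd c t₀)).obj L ≅
      SheafOfModules.unit (pullback c g).ringCatSheaf))
    {T : Scheme.{u}} {t : T ⟶ Spec (CommRingCat.of k)} (u : SchemeHomOver t t')
    (M : RigidifiedLineBundle c ε t)
    (hM : Nonempty (M.L ≅ (Scheme.Modules.pullback (baseChangeSnd c u)).obj L)) :
    FibrewiseAlgEquivZero M := by
  intro k' _ _ s
  set γ := s ≫ u.1 ≫ h with hγ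
  set a := fibreAt c t s with ha
  have hat : a ≫ s = pullback.fst (pullback.snd c t) s ≫ pullback.snd c t :=
    pullback.condition.symm
  have hq : s ≫ t = γ ≫ g := by rw [hγ, Category.assoc, Category.assoc, ht, u.2]
  let φ : pullback a (pullback.snd h γ) ⟶ pullback c t' :=
    pullback.lift (pullback.fst _ _ ≫ pullback.fst _ _ ≫ pullback.fst c t)
      (pullback.snd _ _ ≫ pullback.fst h γ) (by
        rw [Category.assoc, Category.assoc, pullback.condition, ← reassoc_of% hat, hq,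
          reassoc_of% pullback.condition (f := a) (g := pullback.snd h γ),
          ← reassoc_of% pullback.condition (f := h) (g := γ), ht, Category.assoc])
  let τ₀ : SchemeHomOver (𝟙 (Spec (CommRingCat.of k'))) (pullback.snd h γ) :=
    ⟨pullback.lift (γ ≫ t₀.1) (𝟙 _) (by rw [Category.assoc, ht₀, Category.comp_id, Category.id_comp]),
      pullback.lift_snd _ _ _⟩
  let τ₁ : SchemeHomOver (𝟙 (Spec (CommRingCat.of k'))) (pullback.snd h γ) :=
    ⟨pullback.lift (s ≫ u.1) (𝟙 _) (by rw [Category.assoc, Category.id_comp]),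
      pullback.lift_snd _ _ _⟩
  refine ⟨pullback h γ, pullback.snd h γ, inferInstance, inferInstance,
    (Scheme.Modules.pullback φ).obj L, hL.pullback φ, τ₀, τ₁, ?_, ?_⟩
  · let ρ : pullback a (𝟙 (Spec (CommRingCat.of k'))) ⟶ pullback c g :=
      pullback.lift (pullback.fst _ _ ≫ pullback.fst _ _ ≫ pullback.fst c t)
        (pullback.snd _ _ ≫ γ) (by
          rw [Category.assoc, Category.assoc, pullback.condition, ← reassoc_of% hat, hq,
            reassoc_of% pullback.condition (f := a) (g := 𝟙 _)]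
          simp [hγ, Category.assoc])
    obtain ⟨e⟩ := nonempty_pullback_iso_unit (f := ρ) (g := baseChangeSnd c t₀)
      (h := baseChangeSnd a τ₀ ≫ φ) (by
        apply pullback.hom_ext <;>
          simp [pullback.lift_fst, pullback.lift_snd, pullback.lift_snd_assoc, φ, ρ, τ₀, baseChangeSnd_fst, baseChangeSnd_snd, reassoc_of% @baseChangeSnd_fst, reassoc_of% @baseChangeSnd_snd, Category.assoc]) e₀
    exact ⟨pullbackIsoOfEq rfl L ≪≫ e⟩
  · obtain ⟨e⟩ := hM
    exact ⟨pullbackIsoOfEq rfl L ≪≫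
      (pullbackIsoOfEq (f := pullback.fst a (𝟙 _) ≫ pullback.fst (pullback.snd c t) s)
        (g := baseChangeSnd c u) (h := baseChangeSnd a τ₁ ≫ φ) (by
        apply pullback.hom_ext <;>
          simp [pullback.lift_fst, pullback.lift_snd, φ, τ₁, baseChangeSnd_fst, baseChangeSnd_snd, reassoc_of% @baseChangeSnd_fst, reassoc_of% @baseChangeSnd_snd, Category.assoc]
        · rw [← reassoc_of% hat, reassoc_of% pullback.condition (f := a) (g := 𝟙 _)]
        ) L).symm ≪≫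
      (Scheme.Modules.pullback _).mapIso e.symm ≪≫
      (pullbackIsoOfEq rfl M.L).symm⟩

/-- **The family behind a fibrewise algebraically trivial bundle**: over every algebraically
closed point an integral (in particular connected) family joins the fibre to the trivial bundle. -/
theorem exists_family {T : Scheme.{u}} {t : T ⟶ Spec (CommRingCat.of k)}
    (M : RigidifiedLineBundle c ε t) (hM : FibrewiseAlgEquivZero M) {K : Type u} [Field K]
    [IsAlgClosed K] (s : Spec (CommRingCat.of K) ⟶ T) :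
    ∃ (T' : Scheme.{u}) (h : T' ⟶ Spec (CommRingCat.of K)) (_ : LocallyOfFiniteType h)
      (_ : GeometricallyIntegral h) (_ : IsIntegral T') (_ : ConnectedSpace T')
      (L : (pullback c (h ≫ s ≫ t)).Modules) (_ : L.IsInvertible)
      (t₀ t₁ : SchemeHomOver (s ≫ t) (h ≫ s ≫ t)), t₀.1 ≫ h = 𝟙 _ ∧ t₁.1 ≫ h = 𝟙 _ ∧
        Nonempty ((Scheme.Modules.pullback (baseChangeSnd c t₀)).obj L ≅
          SheafOfModules.unit (pullback c (s ≫ t)).ringCatSheaf) ∧
        Nonempty ((Scheme.Modules.pullback (baseChangeSnd c t₁)).obj L ≅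
          (M.pullbackAlong (⟨s, rfl⟩ : SchemeHomOver (s ≫ t) t)).L) := by
  obtain ⟨T', h, hft, hgi, M', hM', t₀, t₁, ⟨e₀⟩, ⟨e₁⟩⟩ := hM K s
  set t' := h ≫ s ≫ t with ht'
  let ψ : pullback c t' ⟶ pullback (fibreAt c t s) h :=
    pullback.lift (pullback.lift (pullback.lift (pullback.fst c t') (pullback.snd c t' ≫ h ≫ s)
      (by rw [pullback.condition, ht']; simp only [Category.assoc]))
      (pullback.snd c t' ≫ h) (by rw [pullback.lift_snd, Category.assoc]))
      (pullback.snd c t') (by rw [fibreAt, pullback.lift_snd])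
  let L := (Scheme.Modules.pullback ψ).obj M'
  have hLi : L.IsInvertible := hM'.pullback ψ
  let e : pullback c (s ≫ t) ⟶ pullback (fibreAt c t s) (𝟙 (Spec (CommRingCat.of K))) :=
    pullback.lift (pullback.lift (pullback.lift (pullback.fst c (s ≫ t)) (pullback.snd c (s ≫ t) ≫ s)
      (pullback.condition.trans (Category.assoc _ _ _).symm))
      (pullback.snd c (s ≫ t)) (by rw [pullback.lift_snd]))
      (pullback.snd c (s ≫ t)) (by rw [fibreAt, pullback.lift_snd, Category.comp_id])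
  let pt : (τ : SchemeHomOver (𝟙 (Spec (CommRingCat.of K))) h) → SchemeHomOver (s ≫ t) t' :=
    fun τ => ⟨τ.1, by rw [ht', reassoc_of% τ.2]⟩
  have hsq : ∀ τ, baseChangeSnd c (pt τ) ≫ ψ = e ≫ baseChangeSnd (fibreAt c t s) τ := fun τ => by
    have hτ := τ.2
    apply pullback.hom_ext
    · apply pullback.hom_ext
      · apply pullback.hom_ext <;> simp [pullback.lift_fst, pullback.lift_snd, ψ, e, pt, baseChangeSnd_fst, reassoc_of% @baseChangeSnd_snd, reassoc_of% hτ]
      · simp [pullback.lift_fst, pullback.lift_snd, ψ, e, pt, baseChangeSnd_fst, reassoc_of% @baseChangeSnd_snd, hτ]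
    · simp [pullback.lift_snd, pullback.lift_snd_assoc, ψ, e, pt, baseChangeSnd_snd]
  have hL₀ : Nonempty ((Scheme.Modules.pullback (baseChangeSnd c (pt t₀))).obj L ≅
      SheafOfModules.unit _) := by
    obtain ⟨f⟩ := nonempty_pullback_iso_unit (f := e) (g := baseChangeSnd (fibreAt c t s) t₀) rfl ⟨e₀⟩
    exact ⟨pullbackIsoOfEq (hsq t₀) M' ≪≫ f⟩
  have hL₁ : Nonempty ((Scheme.Modules.pullback (baseChangeSnd c (pt t₁))).obj L ≅
      (M.pullbackAlong (⟨s, rfl⟩ : SchemeHomOver (s ≫ t) t)).L) :=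
    ⟨pullbackIsoOfEq (hsq t₁) M' ≪≫ (pullbackIsoOfEq rfl M').symm ≪≫
      (Scheme.Modules.pullback e).mapIso (e₁ ≪≫ pullbackIsoOfEq rfl M.L) ≪≫
      pullbackIsoOfEq (h := baseChangeSnd c (⟨s, rfl⟩ : SchemeHomOver (s ≫ t) t)) (by
        apply pullback.hom_ext <;> simp [pullback.lift_fst, pullback.lift_snd, pullback.lift_fst_assoc, e, baseChangeSnd_fst, baseChangeSnd_snd]) M.L⟩
  have : IsIntegral T' := GeometricallyIntegral.isIntegral_of_subsingleton h
  exact ⟨T', h, hft, hgi, inferInstance, inferInstance, L, hLi, pt t₀, pt t₁, t₀.2, t₁.2, hL₀, hL₁⟩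

variable {Q : SubPicCondition c ε} {D₀ : RelativePic0Designation k c}
  (h₀ : RepresentsRelSubPic c ε Q D₀)

/-- An integral family with a trivial member classifies into one connected piece of `D₀`. -/
theorem classify_mem_of_algEquiv [LocallyOfFiniteType D₀.toBase]
    (hQ : ∀ {T : Scheme.{u}} (t : T ⟶ Spec (CommRingCat.of k)) (M : RigidifiedLineBundle c ε t),
      FibrewiseAlgEquivZero M → Q.P t M)
    {U : D₀.P.Opens} (hU : IsClosed (U : Set D₀.P)) (hoU : ∀ p, D₀.zeroSection p ∈ U)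
    {T : Scheme.{u}} (t : T ⟶ Spec (CommRingCat.of k)) (M : RigidifiedLineBundle c ε t)
    (hM : FibrewiseAlgEquivZero M) (x : T) :
    (h₀.classify t M (hQ t M hM)).1 x ∈ U := by
  classical
  set g₀ := h₀.classify t M (hQ t M hM)
  let K := AlgebraicClosure (T.residueField x)
  let s : Spec (CommRingCat.of K) ⟶ T :=
    Spec.map (CommRingCat.ofHom (algebraMap (T.residueField x) K)) ≫ T.fromSpecResidueField x
  have hsx : ∀ q, s q = x := fun q =>
    (T.range_fromSpecResidueField x).subset ⟨_, (Scheme.Hom.comp_apply _ _ q).symm⟩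
  obtain ⟨T', h, hft, hgi, hint, -, L, hLi, t₀, t₁, ht₀, ht₁, hL₀, hL₁⟩ := exists_family M hM s
  let t' := h ≫ s ≫ t
  have ht' : t' = h ≫ s ≫ t := rfl
  -- rigidifiable opens of the family
  let Rig : T'.Opens → Prop := fun W => Nonempty ((Scheme.Modules.pullback W.ι).obj
    ((Scheme.Modules.pullback (rigSection c t' ε)).obj L) ≅ SheafOfModules.unit _)
  let MW : ∀ W, Rig W → RigidifiedLineBundle c ε (W.ι ≫ t') := fun W hW =>
    { L := (Scheme.Modules.pullback (baseChangeSnd c (⟨W.ι, rfl⟩ : SchemeHomOver (W.ι ≫ t') t'))).obj L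
      isInvertible := hLi.pullback _
      rigidified := ⟨pullbackIsoOfEq (rigSection_baseChangeSnd c ε ⟨W.ι, rfl⟩) L ≪≫
        (pullbackIsoOfEq rfl L).symm ≪≫ hW.some⟩ }
  have hMW : ∀ W hW, Q.P _ (MW W hW) := fun W hW => hQ _ _
    (fibrewiseAlgEquivZero_of_family (s ≫ t) (h := h) ht'.symm L hLi t₀ ht₀ hL₀
      ⟨W.ι, rfl⟩ _ ⟨Iso.refl _⟩)
  let gW : ∀ W : T'.Opens, Rig W → SchemeHomOver (W.ι ≫ t') D₀.toBase := fun W hW =>
    h₀.classify _ (MW W hW) (hMW W hW)
  -- a point of an open composed with its classifying map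
  have hfac : ∀ (W : T'.Opens) hW (T'' : Scheme.{u}) (t'' : T'' ⟶ Spec (CommRingCat.of k))
      (v : T'' ⟶ (W : Scheme.{u})) (w : SchemeHomOver t'' t') (hv : v ≫ W.ι = w.1),
      ∃ g : SchemeHomOver t'' D₀.toBase, g.1 = v ≫ (gW W hW).1 ∧
        Nonempty ((h₀.poincare.pullbackAlong g).L ≅
          (Scheme.Modules.pullback (baseChangeSnd c w)).obj L) := by
    intro W hW T'' t'' v w hv
    have hvt : v ≫ W.ι ≫ t' = t'' := by rw [reassoc_of% hv, w.2]
    refine ⟨⟨v ≫ (gW W hW).1, by rw [Category.assoc, (gW W hW).2, hvt]⟩, rfl, ?_⟩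
    obtain ⟨i₁⟩ := nonempty_pullbackAlong_iso h₀.poincare (gW W hW) (⟨v, hvt⟩ : SchemeHomOver t'' _)
      ⟨v ≫ (gW W hW).1, by rw [Category.assoc, (gW W hW).2, hvt]⟩ rfl
    obtain ⟨i₂⟩ := h₀.classify_spec _ (MW W hW) (hMW W hW)
    exact ⟨i₁.symm ≪≫ (Scheme.Modules.pullback _).mapIso i₂ ≪≫ pullbackIsoOfEq (by
      rw [baseChangeSnd_comp]; exact congrArg _ (Subtype.ext hv)) L⟩
  -- agreement on overlaps
  have hagree : ∀ W hW W' hW' (y : T') (hy : y ∈ W) (hy' : y ∈ W'),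
      (gW W hW).1 ⟨y, hy⟩ = (gW W' hW').1 ⟨y, hy'⟩ := by
    intro W hW W' hW' y hy hy'
    obtain ⟨g, hg, ⟨i⟩⟩ := hfac W hW _ ((W ⊓ W').ι ≫ t') (T'.homOfLE inf_le_left)
      ⟨(W ⊓ W').ι, rfl⟩ (by simp)
    obtain ⟨g', hg', ⟨i'⟩⟩ := hfac W' hW' _ ((W ⊓ W').ι ≫ t') (T'.homOfLE inf_le_right)
      ⟨(W ⊓ W').ι, rfl⟩ (by simp)
    have hgg := congrArg Subtype.val (h₀.ext_of_iso _ g g' ⟨i ≪≫ i'.symm⟩)
    rw [hg, hg'] at hgg
    have h1 := congr($hgg ⟨y, hy, hy'⟩)
    have h2 : ∀ V (hV : W ⊓ W' ≤ V), (T'.homOfLE hV) ⟨y, hy, hy'⟩ = ⟨y, hV ⟨hy, hy'⟩⟩ :=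
      fun V hV => Subtype.ext (Scheme.homOfLE_apply _ _)
    rw [← h2 W inf_le_left, ← h2 W' inf_le_right]
    exact h1
  let Sin : Set T' := {y | ∃ W, ∃ hW : Rig W, ∃ hy : y ∈ W, (gW W hW).1 ⟨y, hy⟩ ∈ U}
  let Sout : Set T' := {y | ∃ W, ∃ hW : Rig W, ∃ hy : y ∈ W, (gW W hW).1 ⟨y, hy⟩ ∉ U}
  have hin : IsOpen Sin := by
    refine isOpen_iff_forall_mem_open.mpr fun y ⟨W, hW, hy, hyU⟩ => ?_
    refine ⟨W.ι ''ᵁ ((gW W hW).1 ⁻¹ᵁ U), ?_, TopologicalSpace.Opens.isOpen _, ⟨⟨y, hy⟩, hyU, rfl⟩⟩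
    rintro _ ⟨⟨z, hz⟩, hzU, rfl⟩
    exact ⟨W, hW, hz, hzU⟩
  have hout : IsOpen Sout := by
    refine isOpen_iff_forall_mem_open.mpr fun y ⟨W, hW, hy, hyU⟩ => ?_
    refine ⟨W.ι ''ᵁ ((gW W hW).1 ⁻¹ᵁ ⟨_, hU.isOpen_compl⟩), ?_, TopologicalSpace.Opens.isOpen _,
      ⟨⟨y, hy⟩, hyU, rfl⟩⟩
    rintro _ ⟨⟨z, hz⟩, hzU, rfl⟩
    exact ⟨W, hW, hz, hzU⟩
  have hrig : ∀ y : T', ∃ W, Rig W ∧ y ∈ W := fun y => by
    obtain ⟨W, hy, hW⟩ := (hLi.pullback (rigSection c t' ε)).exists_trivialization y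
    exact ⟨W, hW, hy⟩
  have hcompl : Sinᶜ = Sout := Set.ext fun y => by
    refine ⟨fun hy => ?_, fun ⟨W, hW, hy, hyU⟩ ⟨W', hW', hy', hyU'⟩ =>
      hyU (hagree W hW W' hW' y hy hy' ▸ hyU')⟩
    obtain ⟨W, hW, hyW⟩ := hrig y
    exact ⟨W, hW, hyW, fun hU' => hy ⟨W, hW, hyW, hU'⟩⟩
  -- the two points
  have hpoint : ∀ (τ : SchemeHomOver (s ≫ t) t') W hW
      (hy : τ.1 (IsLocalRing.closedPoint K) ∈ W), ∃ g : SchemeHomOver (s ≫ t) D₀.toBase,
        g.1 (IsLocalRing.closedPoint K) = (gW W hW).1 ⟨_, hy⟩ ∧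
        Nonempty ((h₀.poincare.pullbackAlong g).L ≅
          (Scheme.Modules.pullback (baseChangeSnd c τ)).obj L) := fun τ W hW hy => by
    have hr : Set.range τ.1 ⊆ Set.range W.ι := by
      rintro _ ⟨q, rfl⟩
      rw [Scheme.Opens.range_ι, Subsingleton.elim q (IsLocalRing.closedPoint K)]
      exact hy
    obtain ⟨g, hg, i⟩ := hfac W hW _ (s ≫ t) (IsOpenImmersion.lift W.ι τ.1 hr) τ
      (IsOpenImmersion.lift_fac _ _ _)
    refine ⟨g, ?_, i⟩
    rw [hg]
    refine congrArg (gW W hW).1 (Subtype.ext ?_)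
    exact (congr($(IsOpenImmersion.lift_fac W.ι τ.1 hr) (IsLocalRing.closedPoint K)))
  have hne : t₀.1 (IsLocalRing.closedPoint K) ∈ Sin := by
    obtain ⟨W, hW, hy⟩ := hrig (t₀.1 (IsLocalRing.closedPoint K))
    obtain ⟨g, hg, ⟨i⟩⟩ := hpoint t₀ W hW hy
    let z : SchemeHomOver (s ≫ t) (𝟙 (Spec (CommRingCat.of k))) := ⟨s ≫ t, Category.comp_id _⟩
    let g' : SchemeHomOver (s ≫ t) D₀.toBase := ⟨(s ≫ t) ≫ D₀.zeroSection, by
      rw [Category.assoc, D₀.zeroSection_toBase, Category.comp_id]⟩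
    obtain ⟨j⟩ := nonempty_pullbackAlong_iso h₀.poincare
      (⟨D₀.zeroSection, D₀.zeroSection_toBase⟩ : SchemeHomOver (𝟙 _) D₀.toBase) z g' rfl
    have hgg := congrArg Subtype.val (h₀.ext_of_iso _ g g'
      ⟨i ≪≫ hL₀.some ≪≫ (Scheme.Modules.pullbackUnitIso (baseChangeSnd c z)).symm ≪≫
        (Scheme.Modules.pullback _).mapIso h₀.zero.some.symm ≪≫ j⟩)
    refine ⟨W, hW, hy, ?_⟩
    rw [← hg, hgg]
    exact hoU _
  have huniv : Sin = Set.univ :=
    (isClopen_iff.mp ⟨⟨hcompl ▸ hout⟩, hin⟩).resolve_left (Set.nonempty_iff_ne_empty.mp ⟨_, hne⟩)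
  obtain ⟨W, hW, hy, hyU⟩ :
      t₁.1 (IsLocalRing.closedPoint K) ∈ Sin := huniv ▸ Set.mem_univ _
  obtain ⟨g, hg, ⟨i⟩⟩ := hpoint t₁ W hW hy
  let g' : SchemeHomOver (s ≫ t) D₀.toBase := ⟨s ≫ g₀.1, by rw [Category.assoc, g₀.2]⟩
  obtain ⟨j⟩ := nonempty_pullbackAlong_iso h₀.poincare g₀
    (⟨s, rfl⟩ : SchemeHomOver (s ≫ t) t) g' rfl
  obtain ⟨l⟩ := h₀.classify_spec t M (hQ t M hM)
  have hgg := congrArg Subtype.val (h₀.ext_of_iso _ g g'
    ⟨i ≪≫ hL₁.some ≪≫ (Scheme.Modules.pullback _).mapIso l.symm ≪≫ j⟩)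
  rw [← hg, hgg] at hyU
  have h2 : g'.1 (IsLocalRing.closedPoint K) = g₀.1 x := congrArg g₀.1 (hsx _)
  rwa [h2] at hyU

include h₀ in
/-- **The open and closed piece through zero represents the algebraically trivial bundles.** -/
theorem exists_represents_algEquivZeroCut_of_piece [LocallyOfFiniteType D₀.toBase]
    (hQ : ∀ {T : Scheme.{u}} (t : T ⟶ Spec (CommRingCat.of k)) (M : RigidifiedLineBundle c ε t),
      FibrewiseAlgEquivZero M → Q.P t M)
    (U : D₀.P.Opens) (hU : IsClosed (U : Set D₀.P)) (hoU : ∀ p, D₀.zeroSection p ∈ U)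
    [GeometricallyIntegral (U.ι ≫ D₀.toBase)] :
    ∃ D : RelativePic0Designation k c, Nonempty (RepresentsRelSubPic c ε (algEquivZeroCut c ε) D) ∧
      ∃ e : D.P ⟶ D₀.P, IsOpenImmersion e ∧ IsClosedImmersion e ∧ e ≫ D₀.toBase = D.toBase ∧
        GeometricallyIntegral D.toBase := by
  have hr : Set.range D₀.zeroSection ⊆ Set.range U.ι := by
    rw [Scheme.Opens.range_ι]; rintro _ ⟨p, rfl⟩; exact hoU p
  let D : RelativePic0Designation k c :=
    { P := U
      toBase := U.ι ≫ D₀.toBase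
      zeroSection := IsOpenImmersion.lift U.ι D₀.zeroSection hr
      zeroSection_toBase := by rw [IsOpenImmersion.lift_fac_assoc, D₀.zeroSection_toBase] }
  let ι : SchemeHomOver D.toBase D₀.toBase := ⟨U.ι, rfl⟩
  let P := h₀.poincare.pullbackAlong ι
  obtain ⟨hz⟩ := nonempty_pullbackAlong_iso h₀.poincare ι
    (⟨D.zeroSection, D.zeroSection_toBase⟩ : SchemeHomOver (𝟙 _) D.toBase)
    ⟨D₀.zeroSection, D₀.zeroSection_toBase⟩ (IsOpenImmersion.lift_fac _ _ _)
  have hzero : Nonempty ((P.pullbackAlong ⟨D.zeroSection, D.zeroSection_toBase⟩).L ≅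
      (RigidifiedLineBundle.unit (c := c) (ε := ε) (𝟙 _)).L) := ⟨hz ≪≫ h₀.zero.some⟩
  refine ⟨D, ⟨{ poincare := P, poincare_mem := ?_, univ := ?_, zero := hzero }⟩,
    U.ι, inferInstance, ?_, rfl, inferInstance⟩
  · exact fibrewiseAlgEquivZero_of_family (h := U.ι ≫ D₀.toBase) (𝟙 _) (Category.comp_id _) P.L
      P.isInvertible ⟨D.zeroSection, D.zeroSection_toBase⟩ D.zeroSection_toBase hzero
      ⟨𝟙 _, Category.id_comp _⟩ P
      ⟨((Scheme.Modules.pullbackCongr (baseChangeSnd_id c D.toBase)).app P.L ≪≫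
        (Scheme.Modules.pullbackId _).app P.L).symm⟩
  · intro T t M hM
    set g := h₀.classify t M (hQ t M hM)
    have hrg : Set.range g.1 ⊆ Set.range U.ι := by
      rw [Scheme.Opens.range_ι]
      rintro _ ⟨x, rfl⟩
      exact classify_mem_of_algEquiv h₀ hQ hU hoU t M hM x
    let g' : SchemeHomOver t D.toBase := ⟨IsOpenImmersion.lift U.ι g.1 hrg,
      by rw [IsOpenImmersion.lift_fac_assoc, g.2]⟩
    obtain ⟨j⟩ := nonempty_pullbackAlong_iso h₀.poincare ι g' g (IsOpenImmersion.lift_fac _ _ _)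
    obtain ⟨l⟩ := h₀.classify_spec t M (hQ t M hM)
    refine ⟨g', ⟨j ≪≫ l⟩, fun f ⟨hf⟩ => Subtype.ext ?_⟩
    let f' : SchemeHomOver t D₀.toBase := ⟨f.1 ≫ U.ι, by rw [Category.assoc]; exact f.2⟩
    obtain ⟨jf⟩ := nonempty_pullbackAlong_iso h₀.poincare ι f f' rfl
    have := congrArg Subtype.val (h₀.classify_unique t M (hQ t M hM) f' ⟨jf.symm ≪≫ hf⟩)
    rw [← cancel_mono U.ι, IsOpenImmersion.lift_fac]
    exact this
  · exact IsClosedImmersion.of_isPreimmersion _ (by rw [Scheme.Opens.range_ι]; exact hU)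

end Fermat.Agent.Row24

end
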