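import Fermat.Agent.AV.Local.EtaleLift
import Mathlib.AlgebraicGeometry.Morphisms.Smooth
import Mathlib.AlgebraicGeometry.Geometrically.Integral
import Mathlib.AlgebraicGeometry.Geometrically.Connected
import Mathlib.AlgebraicGeometry.AlgClosed.Basic
import Mathlib.RingTheory.Jacobson.Ring

/-!
# Smooth schemes over an algebraically closed field

Smooth schemes over an algebraically closed field are locally integral, so every point lies in an
open and closed irreducible piece; integral schemes of locally finite type are geometrically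
integral.
-/

set_option autoImplicit false

noncomputable section

universe u

open CategoryTheory CategoryTheory.Limits AlgebraicGeometry TensorProduct

namespace Fermat.Agent.Row24

variable {k : Type u} [Field k] [IsAlgClosed k]

/-- A finitely generated algebra has a rational point at every maximal ideal. -/
theorem exists_point_of_maximal {B : Type u} [CommRing B] [Algebra k B] [Algebra.FiniteType k B]
    (m : Ideal B) [m.IsMaximal] : ∃ a : B →ₐ[k] k, ∀ b, a b = 0 ↔ b ∈ m := by
  let := Ideal.Quotient.field m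
  have : Algebra.FiniteType k (B ⧸ m) :=
    Algebra.FiniteType.of_surjective (Ideal.Quotient.mkₐ k m) Ideal.Quotient.mk_surjective
  have : Module.Finite k (B ⧸ m) := finite_of_finite_type_of_isJacobsonRing _ _
  let e : k ≃ₐ[k] B ⧸ m :=
    AlgEquiv.ofBijective (Algebra.ofId k _) IsAlgClosed.algebraMap_bijective_of_isIntegral
  refine ⟨e.symm.toAlgHom.comp (Ideal.Quotient.mkₐ k m), fun b => ?_⟩
  rw [← Ideal.Quotient.eq_zero_iff_mem]
  exact map_eq_zero_iff e.symm e.symm.injective

/-- Reduced finitely generated algebras over an algebraically closed field stay reduced. -/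
theorem isReduced_tensorProduct {B : Type u} [CommRing B] [Algebra k B] [Algebra.FiniteType k B]
    [_root_.IsReduced B] (L : Type u) [Field L] [Algebra k L] : _root_.IsReduced (B ⊗[k] L) := by
  refine ⟨fun x hx => ?_⟩
  let b := Module.Free.chooseBasis k L
  let bB := Algebra.TensorProduct.basis B b
  have hJac : IsJacobsonRing B := isJacobsonRing_of_finiteType (A := k)
  have hev : ∀ a : B →ₐ[k] k, ∀ i, a (bB.repr x i) = 0 := by
    intro a i
    let Φ : B ⊗[k] L →ₐ[k] L :=
      (Algebra.TensorProduct.lid k L).toAlgHom.comp (Algebra.TensorProduct.map a (AlgHom.id k L))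
    obtain ⟨n, hn⟩ := hx
    have h0 : Φ x = 0 := IsReduced.eq_zero _ ⟨n, by rw [← map_pow, hn, map_zero]⟩
    have hΦ : ∀ (c : B) (l : L), Φ (c ⊗ₜ l) = a c • l := fun c l => by simp [Φ]
    have key : ∀ z : B ⊗[k] L, b.repr (Φ z) i = a (bB.repr z i) := by
      intro z
      induction z using TensorProduct.induction_on with
      | zero => simp
      | tmul c l => simp [hΦ, bB, Algebra.TensorProduct.basis_repr_tmul]
      | add z w hz hw => simp [hz, hw]
    rw [← key, h0, map_zero, Finsupp.zero_apply]
  refine bB.repr.injective (Finsupp.ext fun i => ?_)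
  rw [map_zero, Finsupp.zero_apply]
  have hmem : bB.repr x i ∈ (⊥ : Ideal B).jacobson := by
    rw [Ideal.jacobson, Submodule.mem_sInf]
    rintro m ⟨-, hm⟩
    obtain ⟨a, ha⟩ := exists_point_of_maximal (k := k) m
    exact (ha _).1 (hev a i)
  rw [hJac.out (Ideal.radical_eq_iff.mp (Ideal.radical_bot_of_isReduced ..))] at hmem
  exact hmem

variable {X : Scheme.{u}} (f : X ⟶ Spec (CommRingCat.of k))

/-- Over an algebraically closed field the fibre of a base change over a closed point is a point. -/
theorem subsingleton_preimage_closedPoint [LocallyOfFiniteType f] {L : Type u} [Field L]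
    (y : Spec (CommRingCat.of L) ⟶ Spec (CommRingCat.of k)) {x : X} (hx : IsClosed {x}) :
    ((pullback.fst f y) ⁻¹' {x}).Subsingleton := by
  set p := pointOfClosedPoint f x hx
  have hr : Set.range p = {x} := by
    ext z
    simp only [Set.mem_range, Set.mem_singleton_iff, p, pointOfClosedPoint_apply]
    exact ⟨fun ⟨_, h⟩ => h.symm, fun h => ⟨IsLocalRing.closedPoint k, h.symm⟩⟩
  rw [← hr, ← Scheme.Pullback.range_fst]
  let e : pullback (pullback.fst f y) p ≅ Spec (CommRingCat.of L) :=
    pullbackSymmetry _ _ ≪≫ pullbackRightPullbackFstIso f y p ≪≫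
      pullback.congrHom (pointOfClosedPoint_comp f x hx) rfl ≪≫ asIso (pullback.snd (𝟙 _) y)
  rintro _ ⟨a, rfl⟩ _ ⟨b, rfl⟩
  have := e.hom.homeomorph.injective (Subsingleton.elim (e.hom a) (e.hom b))
  rw [this]

/-- The base change of a reduced affine open piece is reduced. -/
theorem isReduced_pullback_of_affine [LocallyOfFiniteType f] [AlgebraicGeometry.IsReduced X]
    {L : Type u} [Field L] (y : Spec (CommRingCat.of L) ⟶ Spec (CommRingCat.of k))
    {B : CommRingCat.{u}} (j : Spec B ⟶ X) [IsOpenImmersion j] :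
    AlgebraicGeometry.IsReduced (pullback (j ≫ f) y) := by
  obtain ⟨φ, hφ⟩ := Spec.map_surjective (j ≫ f)
  obtain ⟨ψ, hψ⟩ := Spec.map_surjective y
  have : _root_.IsReduced B := (affine_isReduced_iff _).mp (isReduced_of_isOpenImmersion j)
  have hft : φ.hom.FiniteType := (HasRingHomProperty.Spec_iff (P := @LocallyOfFiniteType)).mp
    (hφ ▸ (inferInstance : LocallyOfFiniteType (j ≫ f)))
  let : Algebra k B := φ.hom.toAlgebra
  let : Algebra k L := ψ.hom.toAlgebra
  have : Algebra.FiniteType k B := hft
  have hr := isReduced_tensorProduct (k := k) (B := B) L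
  rw [← hφ, ← hψ]
  have : AlgebraicGeometry.IsReduced (Spec (CommRingCat.of (B ⊗[k] L))) :=
    (affine_isReduced_iff _).mpr hr
  exact isReduced_of_isOpenImmersion (pullbackSpecIso k B L).hom

/-- **An integral scheme of locally finite type over an algebraically closed field is geometrically
integral.** -/
theorem geometricallyIntegral_of_isIntegral [LocallyOfFiniteType f] [IsIntegral X] :
    GeometricallyIntegral f := by
  refine ⟨fun L _ y Z p₁ p₂ h => ?_⟩
  suffices IsIntegral (pullback f y) from IsIntegral.of_isIso h.isoPullback.inv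
  have : JacobsonSpace X := LocallyOfFiniteType.jacobsonSpace f
  have : Surjective y := ⟨Function.surjective_to_subsingleton _⟩
  have hq : IsOpenMap (pullback.fst f y) := (pullback.fst f y).isOpenMap
  have : IrreducibleSpace ↥(pullback f y) := by
    refine { isPreirreducible_univ := ?_, toNonempty := ?_ }
    · rintro U V hU hV ⟨a, -, ha⟩ ⟨b, -, hb⟩
      obtain ⟨z, hzU, hzV⟩ := nonempty_preirreducible_inter (hq U hU) (hq V hV)
        ⟨_, a, ha, rfl⟩ ⟨_, b, hb, rfl⟩
      obtain ⟨x, ⟨⟨a', ha', ha'x⟩, ⟨b', hb', hb'x⟩⟩, hx⟩ :=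
        nonempty_inter_closedPoints (Z := (pullback.fst f y) '' U ∩ (pullback.fst f y) '' V)
          ⟨z, hzU, hzV⟩ ((hq U hU).inter (hq V hV)).isLocallyClosed
      obtain rfl := subsingleton_preimage_closedPoint f y hx ha'x hb'x
      exact ⟨a', trivial, ha', hb'⟩
    · obtain ⟨x⟩ : Nonempty X := inferInstance
      obtain ⟨z, -⟩ := (pullback.fst f y).surjective x
      exact ⟨z⟩
  suffices AlgebraicGeometry.IsReduced (pullback f y) from
    isIntegral_of_irreducibleSpace_of_isReduced _
  refine @IsReduced.of_openCover _ (Scheme.Pullback.openCoverOfLeft X.affineOpenCover.openCover f y)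
    fun i => ?_
  have : IsOpenImmersion (X.affineOpenCover.f i) := X.affineOpenCover.openCover.map_prop i
  exact isReduced_pullback_of_affine f y (X.affineOpenCover.f i)

/-- A geometrically integral morphism is geometrically connected. -/
theorem geometricallyConnected_of_geometricallyIntegral {Y : Scheme.{u}} (g : X ⟶ Y)
    [GeometricallyIntegral g] : GeometricallyConnected g := by
  refine ⟨fun L _ y Z p₁ p₂ h => ?_⟩
  have : IsIntegral Z := GeometricallyIntegral.geometrically_isIntegral y p₁ p₂ h
  infer_instance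

/-- **A smooth scheme over an algebraically closed field is locally a domain.** -/
theorem exists_domain_nhd_of_smooth [Smooth f] (p : X) :
    ∃ W : X.Opens, IsAffineOpen W ∧ p ∈ W ∧ IsDomain Γ(X, W) := by
  obtain ⟨U₀, hU₀, U, hU, hp, e, h⟩ := Smooth.exists_isStandardSmooth f p
  obtain rfl : U₀ = ⊤ := by
    refine TopologicalSpace.Opens.ext (Set.eq_univ_of_forall fun q => ?_)
    rw [Subsingleton.elim (α := PrimeSpectrum k) q (f p)]
    exact e hp
  let : Algebra k Γ(X, U) :=
    ((f.appLE ⊤ U e).hom.comp (Scheme.ΓSpecIso (CommRingCat.of k)).inv.hom).toAlgebra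
  have h' : (algebraMap k Γ(X, U)).IsStandardSmooth :=
    RingHom.isStandardSmooth_respectsIso.right _
      (Scheme.ΓSpecIso (CommRingCat.of k)).symm.commRingCatIsoToRingEquiv h
  obtain ⟨n, φ, hφ, het⟩ := h'.exists_etale_mvPolynomial
  let : Algebra (MvPolynomial (Fin n) k) Γ(X, U) := φ.toAlgebra
  have : IsScalarTower k (MvPolynomial (Fin n) k) Γ(X, U) := .of_algebraMap_eq' hφ.symm
  have : Algebra.Etale (MvPolynomial (Fin n) k) Γ(X, U) := het
  have : IsNoetherianRing Γ(X, U) := AV.Local.isNoetherianRing_etale k n _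
  have : Algebra.FinitePresentation (MvPolynomial (Fin n) k) Γ(X, U) :=
    Algebra.Etale.finitePresentation
  have hft : Algebra.FiniteType k Γ(X, U) :=
    Algebra.FiniteType.trans (S := MvPolynomial (Fin n) k) inferInstance inferInstance
  obtain ⟨m, hm, hpm⟩ := Ideal.exists_le_maximal _ (hU.primeIdealOf ⟨p, hp⟩).isPrime.ne_top
  obtain ⟨a, ha⟩ := exists_point_of_maximal (k := k) m
  let J : Ideal Γ(X, U) :=
    { carrier := {b | ∃ u, a u = 1 ∧ u * b = 0}
      add_mem' := by
        rintro b c ⟨u, hu, hu'⟩ ⟨w, hw, hw'⟩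
        refine ⟨u * w, by rw [map_mul, hu, hw, one_mul], ?_⟩
        rw [mul_add, mul_right_comm, hu', zero_mul, mul_assoc, hw', mul_zero, add_zero]
      zero_mem' := ⟨1, map_one a, mul_zero 1⟩
      smul_mem' := by
        rintro c b ⟨u, hu, hu'⟩
        exact ⟨u, hu, by rw [smul_eq_mul, mul_left_comm, hu', mul_zero]⟩ }
  classical
  obtain ⟨S, hS⟩ := IsNoetherian.noetherian J
  obtain ⟨r, hr, hrJ⟩ : ∃ r, a r = 1 ∧ ∀ b ∈ J, r * b = 0 := by
    have hmem : ∀ s : (S : Set Γ(X, U)), (s : Γ(X, U)) ∈ J := fun s =>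
      hS ▸ Submodule.subset_span s.2
    choose w hw hw' using hmem
    refine ⟨∏ s, w s, by rw [map_prod, Finset.prod_eq_one fun s _ => hw s], fun b hb => ?_⟩
    rw [← hS] at hb
    induction hb using Submodule.span_induction with
    | mem s hs =>
        rw [← Finset.mul_prod_erase _ _ (Finset.mem_univ (⟨s, hs⟩ : (S : Set Γ(X, U)))),
          mul_right_comm, hw' ⟨s, hs⟩, zero_mul]
    | zero => rw [mul_zero]
    | add _ _ _ _ h1 h2 => rw [mul_add, h1, h2, add_zero]
    | smul c _ _ h1 => rw [smul_eq_mul, mul_left_comm, h1, mul_zero]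
  refine ⟨X.basicOpen r, hU.basicOpen r, ?_, ?_⟩
  · have : hU.primeIdealOf ⟨p, hp⟩ ∈ PrimeSpectrum.basicOpen r := fun h =>
      zero_ne_one (α := k) (((ha r).2 (hpm h)).symm.trans hr)
    rw [← hU.fromSpec_preimage_basicOpen] at this
    exact (congrArg (· ∈ X.basicOpen r) (hU.fromSpec_primeIdealOf ⟨p, hp⟩)).mp this
  · have := hU.isLocalization_basicOpen r
    have hr0 : ∀ n : ℕ, r ^ n ≠ 0 := fun n h0 => by simpa [hr] using congrArg a h0
    have : Nontrivial Γ(X, X.basicOpen r) := ⟨1, 0, fun h => by
      rw [← map_one (algebraMap Γ(X, U) Γ(X, X.basicOpen r)),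
        IsLocalization.map_eq_zero_iff (Submonoid.powers r)] at h
      obtain ⟨⟨_, i, rfl⟩, hi⟩ := h
      exact hr0 i (by simpa using hi)⟩
    have : NoZeroDivisors Γ(X, X.basicOpen r) := ⟨fun {z w} hzw => by
      obtain ⟨b, s, rfl⟩ := IsLocalization.exists_mk'_eq (Submonoid.powers r) z
      obtain ⟨c, q, rfl⟩ := IsLocalization.exists_mk'_eq (Submonoid.powers r) w
      rw [← IsLocalization.mk'_mul, IsLocalization.mk'_eq_zero_iff] at hzw
      obtain ⟨⟨_, i, rfl⟩, hi⟩ := hzw
      rw [IsLocalization.mk'_eq_zero_iff, IsLocalization.mk'_eq_zero_iff]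
      obtain ⟨u, hu, hu'⟩ := AV.Local.exists_mul_eq_zero_of_mul (g := n) a (b := r ^ i * b) (c := c)
        (by rwa [mul_assoc])
      refine hu'.imp (fun h1 => ⟨⟨_, i + 1, rfl⟩, ?_⟩) (fun h1 => ⟨⟨_, 1, rfl⟩, ?_⟩)
      · show r ^ (i + 1) * b = 0
        rw [pow_succ', mul_assoc]
        exact hrJ _ ⟨u, hu, h1⟩
      · show r ^ 1 * c = 0
        rw [pow_one]
        exact hrJ _ ⟨u, hu, h1⟩⟩
    exact NoZeroDivisors.to_isDomain _

/-- **Every point of a smooth scheme over an algebraically closed field lies in an open and closed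
integral piece.** -/
theorem exists_clopen_integral_piece [Smooth f] (o : X) :
    ∃ U : X.Opens, IsClosed (U : Set X) ∧ o ∈ U ∧ IsIntegral U := by
  have hirr : ∀ p : X, ∃ W : X.Opens, p ∈ W ∧ IsPreirreducible (W : Set X) := fun p => by
    obtain ⟨W, hW, hp, hdom⟩ := exists_domain_nhd_of_smooth f p
    refine ⟨W, hp, ?_⟩
    rw [← hW.range_fromSpec, ← Set.image_univ]
    exact (IrreducibleSpace.isIrreducible_univ (PrimeSpectrum Γ(X, W))).isPreirreducible.image _
      (Scheme.Hom.continuous _).continuousOn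
  obtain ⟨W₀, ho, hW₀⟩ := hirr o
  have hopen : IsOpen (closure (W₀ : Set X)) := isOpen_iff_mem_nhds.2 fun p hp => by
    obtain ⟨W, hpW, hW⟩ := hirr p
    refine Filter.mem_of_superset (W.2.mem_nhds hpW) ?_
    exact (subset_closure_inter_of_isPreirreducible_of_isOpen hW W₀.2
      (mem_closure_iff.1 hp W W.2 hpW)).trans (closure_mono Set.inter_subset_right)
  let U : X.Opens := ⟨closure (W₀ : Set X), hopen⟩
  refine ⟨U, isClosed_closure, subset_closure ho, ?_⟩
  have hred : AlgebraicGeometry.IsReduced X := by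
    have : ∀ p : X, _root_.IsReduced (X.presheaf.stalk p) := fun p => by
      obtain ⟨W, hW, hp, hdom⟩ := exists_domain_nhd_of_smooth f p
      let : Algebra Γ(X, W) (X.presheaf.stalk p) := (X.presheaf.germ W p hp).hom.toAlgebra
      have : IsLocalization.AtPrime (X.presheaf.stalk p) (hW.primeIdealOf ⟨p, hp⟩).asIdeal :=
        hW.isLocalization_stalk ⟨p, hp⟩
      have : IsDomain (X.presheaf.stalk p) :=
        IsLocalization.isDomain_of_atPrime _ (hW.primeIdealOf ⟨p, hp⟩).asIdeal
      infer_instance
    exact isReduced_of_isReduced_stalk X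
  have : AlgebraicGeometry.IsReduced (U : Scheme.{u}) := isReduced_of_isOpenImmersion U.ι
  have : IrreducibleSpace (U : Scheme.{u}) := by
    have h : IsIrreducible (closure (W₀ : Set X)) := ⟨⟨o, subset_closure ho⟩, hW₀.closure⟩
    exact Subtype.irreducibleSpace h
  exact isIntegral_of_irreducibleSpace_of_isReduced _

end Fermat.Agent.Row24

end
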