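import Fermat.Agent.Row24.AlgEquiv
import Fermat.Agent.Row24.GeomPoints
import Mathlib.AlgebraicGeometry.Morphisms.Proper

/-!
# The piece through zero of a larger representable cut

If a cut containing the fibrewise algebraically trivial bundles is represented by a smooth scheme
over an algebraically closed field, then its clopen integral piece through zero represents the
algebraically trivial cut.
-/

set_option autoImplicit false

noncomputable section

universe u

open CategoryTheory CategoryTheory.Limits AlgebraicGeometry AlgebraicGeometry.RelPicard
  NeronModelInfra GoodReductionJacobian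

namespace Fermat.Agent.Row24

/-- **The piece through zero** of a representable cut containing the algebraically trivial one
represents the algebraically trivial cut. -/
theorem exists_piece_of_cut {k : Type u} [Field k] [IsAlgClosed k] {C : Scheme.{u}}
    {c : C ⟶ Spec (CommRingCat.of k)} {ε : SchemeHomOver (𝟙 (Spec (CommRingCat.of k))) c}
    {Q : SubPicCondition c ε}
    (hQ : ∀ {T : Scheme.{u}} (t : T ⟶ Spec (CommRingCat.of k)) (M : RigidifiedLineBundle c ε t),
      FibrewiseAlgEquivZero M → Q.P t M)
    {D₀ : RelativePic0Designation k c} (h₀ : RepresentsRelSubPic c ε Q D₀)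
    [Smooth D₀.toBase] :
    ∃ D : RelativePic0Designation k c,
      Nonempty (RepresentsRelSubPic c ε (algEquivZeroCut c ε) D) ∧
        Smooth D.toBase ∧ GeometricallyIntegral D.toBase ∧ GeometricallyConnected D.toBase ∧
        ∃ e : D.P ⟶ D₀.P, IsOpenImmersion e ∧ IsClosedImmersion e ∧ e ≫ D₀.toBase = D.toBase := by
  obtain ⟨U, hU, hoU, hUint⟩ :=
    exists_clopen_integral_piece D₀.toBase (D₀.zeroSection (IsLocalRing.closedPoint k))
  have := geometricallyIntegral_of_isIntegral (U.ι ≫ D₀.toBase)
  obtain ⟨D, hD, e, he, he', hfac, hgi⟩ := exists_represents_algEquivZeroCut_of_piece h₀ hQ U hU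
    (fun p => by rwa [Subsingleton.elim (α := PrimeSpectrum k) p (IsLocalRing.closedPoint k)])
  have := he
  have := he'
  have := hgi
  exact ⟨D, hD, hfac ▸ inferInstance, hgi,
    geometricallyConnected_of_geometricallyIntegral D.toBase, e, he, he', hfac⟩

end Fermat.Agent.Row24

end
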