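import Fermat.Agent.Row24.Represent

/-!
# The sheaf hypotheses of `exists_representsRelSubPic` from gluing of bundles

The input is gluing of rigidified bundles and of isomorphism classes along open subsets, with
agreement on binary intersections.
-/

set_option autoImplicit false

universe u

open CategoryTheory CategoryTheory.Limits AlgebraicGeometry Opposite NeronModelInfra
open AlgebraicGeometry.RelPicard

noncomputable section

namespace Fermat.Agent.Row24

variable {R : Type u} [CommRing R] {C : Scheme.{u}} {c : C ⟶ Spec (CommRingCat.of R)}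
  {ε : SchemeHomOver (𝟙 (Spec (CommRingCat.of R))) c}

/-- The inclusion of an open subset as a morphism over the base. -/
abbrev openOver {T : Scheme.{u}} (t : T ⟶ Spec (CommRingCat.of R)) (U : T.Opens) :
    SchemeHomOver (U.ι ≫ t) t :=
  ⟨U.ι, rfl⟩

/-- The inclusion between open subsets as a morphism over the base. -/
abbrev leOver {T : Scheme.{u}} (t : T ⟶ Spec (CommRingCat.of R)) {U V : T.Opens} (h : U ≤ V) :
    SchemeHomOver (U.ι ≫ t) (V.ι ≫ t) :=
  ⟨T.homOfLE h, by rw [← Category.assoc, Scheme.homOfLE_ι]⟩

variable (c ε) in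
/-- Rigidified bundles isomorphic on an open cover are isomorphic. -/
def BundlesSeparated : Prop :=
  ∀ {T : Scheme.{u}} (t : T ⟶ Spec (CommRingCat.of R)) {ι : Type u} (U : ι → T.Opens),
    iSup U = ⊤ → ∀ M M' : RigidifiedLineBundle c ε t,
      (∀ i, Nonempty ((M.pullbackAlong (openOver t (U i))).L ≅
        (M'.pullbackAlong (openOver t (U i))).L)) →
      Nonempty (M.L ≅ M'.L)

variable (c ε) in
/-- Rigidified bundles isomorphic on the intersections of an open cover glue. -/
def BundlesGlue : Prop :=
  ∀ {T : Scheme.{u}} (t : T ⟶ Spec (CommRingCat.of R)) {ι : Type u} (U : ι → T.Opens),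
    iSup U = ⊤ → ∀ M : ∀ i, RigidifiedLineBundle c ε ((U i).ι ≫ t),
      (∀ i j, Nonempty (((M i).pullbackAlong (leOver t (inf_le_left : U i ⊓ U j ≤ U i))).L ≅
        ((M j).pullbackAlong (leOver t (inf_le_right : U i ⊓ U j ≤ U j))).L)) →
      ∃ N : RigidifiedLineBundle c ε t, ∀ i,
        Nonempty ((N.pullbackAlong (openOver t (U i))).L ≅ (M i).L)

theorem separatedOpens_of_bundles (h : BundlesSeparated c ε) :
    SeparatedOpens (relPicardPresheaf c ε) := by
  intro T ι U hU x x' hxx
  induction x using Quotient.ind with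
  | _ M =>
    induction x' using Quotient.ind with
    | _ M' =>
      exact Quotient.sound (h T.hom U
        (eq_top_iff.2 fun p _ => TopologicalSpace.Opens.mem_iSup.2 (hU p)) M M'
        fun i => Quotient.exact (hxx i))

theorem gluesOpens_of_bundles (h : BundlesGlue c ε) : GluesOpens (relPicardPresheaf c ε) := by
  intro T ι U hU x hx
  choose M hM using fun i => Quotient.exists_rep (x i)
  obtain ⟨N, hN⟩ := h T.hom U (eq_top_iff.2 fun p _ => TopologicalSpace.Opens.mem_iSup.2 (hU p)) M
    fun i j => by
      let a : openObj T (U i ⊓ U j) ⟶ openObj T (U i) :=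
        Over.homMk (T.left.homOfLE inf_le_left) (leOver T.hom inf_le_left).2
      let b : openObj T (U i ⊓ U j) ⟶ openObj T (U j) :=
        Over.homMk (T.left.homOfLE inf_le_right) (leOver T.hom inf_le_right).2
      have hab : a ≫ openHom T (U i) = b ≫ openHom T (U j) :=
        Over.OverMorphism.ext ((Scheme.homOfLE_ι T.left (inf_le_left : U i ⊓ U j ≤ U i)).trans
          (Scheme.homOfLE_ι T.left (inf_le_right : U i ⊓ U j ≤ U j)).symm)
      have h1 := hx i j _ a b hab
      rw [← hM i, ← hM j] at h1
      exact Quotient.exact h1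
  exact ⟨Quotient.mk _ N, fun i => (Quotient.sound (hN i)).trans (hM i)⟩

end Fermat.Agent.Row24

end
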