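import Fermat.Agent.Row24.Cond.Fibre
import Fermat.Agent.Row24.SheafAdapter
import Fermat.Agent.Row24.Reduction
import Fermat.Agent.Row24.Crit.Smooth
import Fermat.Agent.Row24.Atlas.Affine

/-!
# Assembly of the Jacobian from its ingredients

Gluing of rigidified bundles, an atlas for a cut given at field-valued points, lifting along
thickenings and properness of the piece of zero give the representing scheme.
-/

set_option autoImplicit false

universe u

open CategoryTheory CategoryTheory.Limits AlgebraicGeometry AlgebraicGeometry.RelPicard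
  NeronModelInfra GoodReductionJacobian

noncomputable section

namespace Fermat.Agent.Row24

variable {k : Type u} [Field k] [IsAlgClosed k] {C : Scheme.{u}}
  {c : C ⟶ Spec (CommRingCat.of k)} {ε : SchemeHomOver (𝟙 (Spec (CommRingCat.of k))) c}

/-- **The Jacobian from its ingredients.** -/
theorem exists_jacobian_of (hsep : BundlesSeparated c ε) (hglue : BundlesGlue c ε)
    (Φ : PointProperty c ε)
    (hQ : ∀ {T : Scheme.{u}} (t : T ⟶ Spec (CommRingCat.of k)) (M : RigidifiedLineBundle c ε t),
      FibrewiseAlgEquivZero M → (pointCut Φ).P t M)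
    (A : PicAffineAtlas (pointCut Φ))
    (hlift : ∀ (B : Type u) [CommRing B] [Algebra k B] (I : Ideal B), I ^ 2 = ⊥ →
      ∀ M : RigidifiedLineBundle c ε (Crit.specStr k (B ⧸ I)),
        ∃ M' : RigidifiedLineBundle c ε (Crit.specStr k B),
          Nonempty ((M'.pullbackAlong (Crit.thickening B I)).L ≅ M.L))
    (hproper : ∀ (D₀ D : RelativePic0Designation k c),
      RepresentsRelSubPic c ε (pointCut Φ) D₀ →
      RepresentsRelSubPic c ε (algEquivZeroCut c ε) D →
      LocallyOfFinitePresentation D₀.toBase → GeometricallyIntegral D.toBase → Smooth D.toBase →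
      ∀ e : D.P ⟶ D₀.P, IsOpenImmersion e → IsClosedImmersion e → e ≫ D₀.toBase = D.toBase →
        IsProper D.toBase) :
    ∃ D : RelativePic0Designation k c,
      Nonempty (RepresentsRelSubPic c ε (algEquivZeroCut c ε) D) ∧
        Smooth D.toBase ∧ IsProper D.toBase ∧ GeometricallyConnected D.toBase := by
  obtain ⟨D₀, ⟨h₀⟩, hfp₀⟩ := exists_representsRelSubPic_of_affineAtlas
    (separatedOpens_of_bundles hsep) (gluesOpens_of_bundles hglue) (isLocalCondition_pointCut Φ) A
  have : Smooth D₀.toBase := Crit.smooth_of_representsRelSubPic h₀ fun B _ _ I hI M hM => by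
    obtain ⟨M', hM'⟩ := hlift B I hI M
    refine ⟨M', fun K _ s => ?_, hM'⟩
    have hN : IsNilpotent I := ⟨2, hI⟩
    have hr : ∀ x, x ∈ RingHom.ker (Ideal.Quotient.mk I) → IsNilpotent x := fun x hx =>
      ⟨2, by
        rw [RingHom.mem_ker, Ideal.Quotient.eq_zero_iff_mem] at hx
        have h2 := Ideal.pow_mem_pow hx 2
        rwa [hI] at h2⟩
    obtain ⟨φ, rfl⟩ := Spec.map_surjective s
    have hker : ∀ x ∈ I, φ.hom x = 0 := fun x hx =>
      IsNilpotent.eq_zero ((hr x (by rwa [RingHom.mem_ker, Ideal.Quotient.eq_zero_iff_mem])).map φ.hom)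
    let ψ : SchemeHomOver (Spec.map φ ≫ Crit.specStr k B) (Crit.specStr k (B ⧸ I)) :=
      ⟨Spec.map (CommRingCat.ofHom (Ideal.Quotient.lift I φ.hom hker)), by
        rw [← Spec.map_comp, ← Spec.map_comp]
        congr 1⟩
    refine Φ.holds_congr K _ _ _ ?_ (pointCut_holds Φ hM K ψ)
    obtain ⟨e⟩ := hM'
    obtain ⟨e'⟩ := nonempty_pullbackAlong_iso M' (Crit.thickening B I) ψ
      (⟨Spec.map φ, rfl⟩ : SchemeHomOver (Spec.map φ ≫ Crit.specStr k B) _) (by
        show Spec.map _ ≫ Spec.map _ = Spec.map φ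
        rw [← Spec.map_comp]
        congr 1)
    exact ⟨((Scheme.Modules.pullback (baseChangeSnd c ψ)).mapIso e).symm ≪≫ e'⟩
  obtain ⟨D, ⟨hD⟩, hs, hgi, hgc, e, he, he', hfac⟩ := exists_piece_of_cut hQ h₀
  exact ⟨D, ⟨hD⟩, hs, hproper D₀ D h₀ hD hfp₀ hgi hs e he he' hfac, hgc⟩

end Fermat.Agent.Row24

end
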