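import Mathlib

/-!
# Representability from charts, over a base scheme

A presheaf on schemes over `S` which is separated and glues for open covers, and which has charts
with open loci covering every test object, is represented by the glued scheme.
-/

set_option autoImplicit false

universe w u

open CategoryTheory CategoryTheory.Limits AlgebraicGeometry Opposite

noncomputable section

namespace Fermat.Agent.Row24

variable {S : Scheme.{u}} (G : (Over S)ᵒᵖ ⥤ Type w)

/-- Restriction of a section along a morphism. -/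
abbrev res {T T' : Over S} (g : T' ⟶ T) (x : G.obj (op T)) : G.obj (op T') :=
  G.map g.op x

lemma res_comp {T T' T'' : Over S} (g : T' ⟶ T) (h : T'' ⟶ T') (x : G.obj (op T)) :
    res G (h ≫ g) x = res G h (res G g x) := by
  simp [res]

@[simp] lemma res_id {T : Over S} (x : G.obj (op T)) : res G (𝟙 T) x = x := by
  simp [res]

/-- An open subscheme as an object over the base. -/
abbrev openObj (T : Over S) (U : T.left.Opens) : Over S :=
  Over.mk (U.ι ≫ T.hom)

/-- The inclusion of an open subscheme. -/
abbrev openHom (T : Over S) (U : T.left.Opens) : openObj T U ⟶ T :=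
  Over.homMk U.ι rfl

/-- A morphism into an open subscheme from a condition on its range. -/
def liftOpen {T T' : Over S} (U : T.left.Opens) (g : T' ⟶ T)
    (h : Set.range g.left ⊆ (U : Set T.left)) : T' ⟶ openObj T U :=
  Over.homMk (IsOpenImmersion.lift U.ι g.left (by simpa using h)) (by
    show IsOpenImmersion.lift _ _ _ ≫ U.ι ≫ T.hom = _
    rw [← Category.assoc, IsOpenImmersion.lift_fac]
    exact Over.w g)

@[simp, reassoc] lemma liftOpen_openHom {T T' : Over S} (U : T.left.Opens) (g : T' ⟶ T)
    (h : Set.range g.left ⊆ (U : Set T.left)) : liftOpen U g h ≫ openHom T U = g :=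
  Over.OverMorphism.ext (by simp [liftOpen])

lemma range_openHom_subset {T T' : Over S} (U : T.left.Opens) (g : T' ⟶ openObj T U) :
    Set.range (g ≫ openHom T U).left ⊆ (U : Set T.left) := by
  rintro _ ⟨x, rfl⟩
  exact (g.left x).2

/-- Sections are determined on open covers. -/
def Separated : Prop :=
  ∀ (T : Over S) {ι : Type u} (W : ι → Over S) (e : ∀ i, W i ⟶ T),
    (∀ i, IsOpenImmersion (e i).left) → (∀ p : T.left, ∃ i, p ∈ Set.range (e i).left) →
    ∀ x x' : G.obj (op T), (∀ i, res G (e i) x = res G (e i) x') → x = x'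

/-- Compatible sections on open covers glue. -/
def Glues : Prop :=
  ∀ (T : Over S) {ι : Type u} (W : ι → Over S) (e : ∀ i, W i ⟶ T),
    (∀ i, IsOpenImmersion (e i).left) → (∀ p : T.left, ∃ i, p ∈ Set.range (e i).left) →
    ∀ x : ∀ i, G.obj (op (W i)),
      (∀ (i j : ι) (V : Over S) (a : V ⟶ W i) (b : V ⟶ W j), a ≫ e i = b ≫ e j →
        res G a (x i) = res G b (x j)) →
      ∃ y : G.obj (op T), ∀ i, res G (e i) y = x i

/-- Charts: objects with sections classifying uniquely on open loci which cover every test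
object. -/
structure Atlas where
  /-- the index type -/
  I : Type u
  /-- the charts -/
  X : I → Over S
  /-- the sections on the charts -/
  sec : ∀ i, G.obj (op (X i))
  /-- a morphism to a chart is determined by the section it induces -/
  inj : ∀ (i : I) {T : Over S} (g g' : T ⟶ X i), res G g (sec i) = res G g' (sec i) → g = g'
  /-- the locus where a section comes from a chart is open and universal -/
  locus : ∀ (i : I) {T : Over S} (x : G.obj (op T)), ∃ U : T.left.Opens,
    ∀ {T' : Over S} (g : T' ⟶ T),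
      (∃ h : T' ⟶ X i, res G h (sec i) = res G g x) ↔ Set.range g.left ⊆ (U : Set T.left)
  /-- the loci cover -/
  cover : ∀ {T : Over S} (x : G.obj (op T)) (p : T.left), ∃ (i : I) (T' : Over S) (g : T' ⟶ T),
    p ∈ Set.range g.left ∧ ∃ h : T' ⟶ X i, res G h (sec i) = res G g x

namespace Atlas

variable {G} (A : Atlas G)

/-- The locus of the chart `i` in a test object. -/
def loc (i : A.I) {T : Over S} (x : G.obj (op T)) : T.left.Opens := (A.locus i x).choose

lemma loc_spec (i : A.I) {T T' : Over S} (x : G.obj (op T)) (g : T' ⟶ T) :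
    (∃ h : T' ⟶ A.X i, res G h (A.sec i) = res G g x) ↔
      Set.range g.left ⊆ (A.loc i x : Set T.left) :=
  (A.locus i x).choose_spec g

/-- The morphism to the chart on its locus. -/
def toChart (i : A.I) {T : Over S} (x : G.obj (op T)) : openObj T (A.loc i x) ⟶ A.X i :=
  ((A.loc_spec i x (openHom T _)).2 (by simp)).choose

lemma res_toChart (i : A.I) {T : Over S} (x : G.obj (op T)) :
    res G (A.toChart i x) (A.sec i) = res G (openHom T _) x :=
  ((A.loc_spec i x (openHom T _)).2 (by simp)).choose_spec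

/-- The overlap of the charts `i` and `j`, in the chart `i`. -/
abbrev overlap (i j : A.I) : Over S := openObj (A.X i) (A.loc j (A.sec i))

/-- Its inclusion. -/
abbrev incl (i j : A.I) : A.overlap i j ⟶ A.X i := openHom (A.X i) _

lemma hom_overlap_ext {i j : A.I} {T : Over S} (a b : T ⟶ A.overlap i j)
    (h : res G (a ≫ A.incl i j) (A.sec i) = res G (b ≫ A.incl i j) (A.sec i)) : a = b := by
  have := congrArg CommaMorphism.left (A.inj i _ _ h)
  exact Over.OverMorphism.ext ((cancel_mono (A.loc j (A.sec i)).ι).1 this)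

/-- The transition map. -/
def trans (i j : A.I) : A.overlap i j ⟶ A.overlap j i :=
  liftOpen _ (A.toChart j (A.sec i))
    ((A.loc_spec i (A.sec j) _).1 ⟨A.incl i j, (A.res_toChart j (A.sec i)).symm⟩)

lemma res_trans (i j : A.I) :
    res G (A.trans i j ≫ A.incl j i) (A.sec j) = res G (A.incl i j) (A.sec i) := by
  rw [trans, liftOpen_openHom]
  exact A.res_toChart j (A.sec i)

lemma trans_self (i : A.I) : A.trans i i = 𝟙 _ :=
  A.hom_overlap_ext _ _ (by rw [Category.id_comp]; exact A.res_trans i i)

lemma res_trans_comp {i j : A.I} {T : Over S} (c : T ⟶ A.overlap i j) :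
    res G (c ≫ A.trans i j ≫ A.incl j i) (A.sec j) = res G (c ≫ A.incl i j) (A.sec i) := by
  rw [res_comp, res_comp G (A.incl i j), A.res_trans]

lemma loc_self (i : A.I) : A.loc i (A.sec i) = ⊤ := by
  refine top_le_iff.1 fun p _ => ?_
  exact (A.loc_spec i (A.sec i) (𝟙 _)).1 ⟨𝟙 _, rfl⟩ ⟨p, rfl⟩

/-- The triple overlap. -/
abbrev triple (i j k : A.I) : Over S :=
  Over.mk (pullback.fst (A.incl i j).left (A.incl i k).left ≫ (A.overlap i j).hom)

/-- Its first projection. -/
abbrev triple₁ (i j k : A.I) : A.triple i j k ⟶ A.overlap i j :=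
  Over.homMk (pullback.fst (A.incl i j).left (A.incl i k).left) rfl

/-- Its second projection. -/
abbrev triple₂ (i j k : A.I) : A.triple i j k ⟶ A.overlap i k :=
  Over.homMk (pullback.snd (A.incl i j).left (A.incl i k).left) (by
    show _ ≫ (A.loc k (A.sec i)).ι ≫ (A.X i).hom = _ ≫ (A.loc j (A.sec i)).ι ≫ (A.X i).hom
    rw [← Category.assoc, ← Category.assoc]
    exact congrArg (· ≫ (A.X i).hom) pullback.condition.symm)

lemma triple_condition (i j k : A.I) :
    A.triple₁ i j k ≫ A.incl i j = A.triple₂ i j k ≫ A.incl i k :=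
  Over.OverMorphism.ext pullback.condition

/-- The lift of the rotated first projection. -/
def rotate (i j k : A.I) : A.triple i j k ⟶ A.overlap j k :=
  liftOpen _ (A.triple₁ i j k ≫ A.trans i j ≫ A.incl j i)
    ((A.loc_spec k (A.sec j) _).1 ⟨A.triple₂ i j k ≫ A.trans i k ≫ A.incl k i, by
      rw [A.res_trans_comp, A.res_trans_comp, triple_condition]⟩)

lemma rotate_incl (i j k : A.I) :
    A.rotate i j k ≫ A.incl j k = A.triple₁ i j k ≫ A.trans i j ≫ A.incl j i :=
  liftOpen_openHom _ _ _

/-- The rotation of the triple overlaps. -/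
def tripleMap (i j k : A.I) : A.triple i j k ⟶ A.triple j k i :=
  Over.homMk (pullback.lift (A.rotate i j k).left (A.triple₁ i j k ≫ A.trans i j).left
    (by simpa using congrArg CommaMorphism.left (A.rotate_incl i j k)))
    (by
      show pullback.lift _ _ _ ≫ pullback.fst _ _ ≫ _ = _
      rw [pullback.lift_fst_assoc]
      exact Over.w (A.rotate i j k))

lemma tripleMap₁ (i j k : A.I) : A.tripleMap i j k ≫ A.triple₁ j k i = A.rotate i j k :=
  Over.OverMorphism.ext (pullback.lift_fst _ _ _)

lemma tripleMap₂ (i j k : A.I) :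
    A.tripleMap i j k ≫ A.triple₂ j k i = A.triple₁ i j k ≫ A.trans i j :=
  Over.OverMorphism.ext (pullback.lift_snd _ _ _)

lemma res_tripleMap (i j k : A.I) {T : Over S} (c : T ⟶ A.triple i j k) :
    res G (c ≫ A.tripleMap i j k ≫ A.triple₁ j k i ≫ A.incl j k) (A.sec j) =
      res G (c ≫ A.triple₁ i j k ≫ A.incl i j) (A.sec i) := by
  rw [← Category.assoc (A.tripleMap i j k), tripleMap₁, rotate_incl, ← Category.assoc c,
    A.res_trans_comp, Category.assoc]

lemma triple_ext {i j k : A.I} {T : Over S} (a b : T ⟶ A.triple i j k)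
    (h : res G (a ≫ A.triple₁ i j k ≫ A.incl i j) (A.sec i) =
      res G (b ≫ A.triple₁ i j k ≫ A.incl i j) (A.sec i)) : a = b := by
  have h1 : a ≫ A.triple₁ i j k = b ≫ A.triple₁ i j k :=
    A.hom_overlap_ext _ _ (by simpa [Category.assoc] using h)
  have h2 : a ≫ A.triple₂ i j k = b ≫ A.triple₂ i j k :=
    A.hom_overlap_ext _ _ (by
      simp only [Category.assoc, ← A.triple_condition i j k]; exact h)
  exact Over.OverMorphism.ext (pullback.hom_ext (congrArg CommaMorphism.left h1)
    (congrArg CommaMorphism.left h2))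

lemma cocycle (i j k : A.I) :
    A.tripleMap i j k ≫ A.tripleMap j k i ≫ A.tripleMap k i j = 𝟙 _ := by
  refine A.triple_ext _ _ ?_
  simp only [Category.assoc, Category.id_comp]
  rw [← Category.assoc (A.tripleMap i j k), A.res_tripleMap k i j, Category.assoc,
    A.res_tripleMap j k i, ← Category.id_comp (A.tripleMap i j k ≫ _), A.res_tripleMap i j k,
    Category.id_comp]

/-- The glue data of the atlas. -/
def glueData : Scheme.GlueData.{u} where
  J := A.I
  U i := (A.X i).left
  V p := (A.overlap p.1 p.2).left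
  f i j := (A.incl i j).left
  f_mono i j := inferInstanceAs (Mono (A.loc j (A.sec i)).ι)
  f_id i := by
    show IsIso (A.loc i (A.sec i)).ι
    rw [A.loc_self i]
    exact inferInstanceAs (IsIso (A.X i).left.topIso.hom)
  t i j := (A.trans i j).left
  t_id i := by rw [A.trans_self]; rfl
  t' i j k := (A.tripleMap i j k).left
  t_fac i j k := congrArg CommaMorphism.left (A.tripleMap₂ i j k)
  cocycle i j k := congrArg CommaMorphism.left (A.cocycle i j k)
  f_open i j := inferInstanceAs (IsOpenImmersion (A.loc j (A.sec i)).ι)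

/-- The structure map of the glued scheme. -/
def glueHom : A.glueData.glued ⟶ S :=
  Multicoequalizer.desc _ _ (fun i => (A.X i).hom) (by
    rintro ⟨i, j⟩
    show (A.incl i j).left ≫ (A.X i).hom = ((A.trans i j).left ≫ (A.incl j i).left) ≫ (A.X j).hom
    rw [← Over.comp_left]
    exact (Over.w (A.incl i j)).trans (Over.w (A.trans i j ≫ A.incl j i)).symm)

/-- The representing object. -/
def obj : Over S := Over.mk A.glueHom

/-- A chart in the representing object. -/
def ι (i : A.I) : A.X i ⟶ A.obj :=
  Over.homMk (A.glueData.ι i)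
    (Multicoequalizer.π_desc A.glueData.diagram S (fun i => (A.X i).hom) _ i)

instance (i : A.I) : IsOpenImmersion (A.ι i).left := Scheme.GlueData.ι_isOpenImmersion A.glueData i

lemma ι_cover (p : A.obj.left) : ∃ i, p ∈ Set.range (A.ι i).left := by
  obtain ⟨i, y, hy⟩ := A.glueData.ι_jointly_surjective p
  exact ⟨i, y, hy⟩

/-- Morphisms to two charts inducing the same section agree in the glued object. -/
lemma comp_ι_eq {i j : A.I} {T : Over S} (a : T ⟶ A.X i) (b : T ⟶ A.X j)
    (h : res G a (A.sec i) = res G b (A.sec j)) : a ≫ A.ι i = b ≫ A.ι j := by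
  set c := liftOpen _ a ((A.loc_spec j (A.sec i) a).1 ⟨b, h.symm⟩) with hc
  have ha : c ≫ A.incl i j = a := liftOpen_openHom _ _ _
  have hb : c ≫ A.trans i j ≫ A.incl j i = b :=
    A.inj j _ _ (by rw [A.res_trans_comp, ha, h])
  have hg : (A.trans i j ≫ A.incl j i) ≫ A.ι j = A.incl i j ≫ A.ι i :=
    Over.OverMorphism.ext ((Category.assoc _ _ _).trans (A.glueData.glue_condition i j))
  rw [← ha, ← hb, Category.assoc, Category.assoc, ← hg, Category.assoc]

/-- Morphisms to two charts agreeing in the glued object induce the same section. -/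
lemma res_eq_of_comp_ι {i j : A.I} {T : Over S} (a : T ⟶ A.X i) (b : T ⟶ A.X j)
    (h : a ≫ A.ι i = b ≫ A.ι j) : res G a (A.sec i) = res G b (A.sec j) := by
  have h' : a.left ≫ A.glueData.ι i = b.left ≫ A.glueData.ι j := congrArg CommaMorphism.left h
  obtain ⟨c, hc1, hc2⟩ := PullbackCone.IsLimit.lift' (A.glueData.vPullbackConeIsLimit i j)
    a.left b.left h'
  have hw : c ≫ (A.overlap i j).hom = T.hom := by
    have := Over.w a
    rw [← hc1] at this
    exact (Category.assoc _ _ _).symm.trans this
  let c' : T ⟶ A.overlap i j := Over.homMk c hw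
  have ha : c' ≫ A.incl i j = a := Over.OverMorphism.ext hc1
  have hb : c' ≫ A.trans i j ≫ A.incl j i = b := Over.OverMorphism.ext hc2
  rw [← ha, ← hb]
  exact (A.res_trans_comp c').symm

lemma sec_glue (hglue : Glues G) : ∃ y : G.obj (op A.obj), ∀ i, res G (A.ι i) y = A.sec i :=
  hglue A.obj A.X A.ι (fun _ => inferInstance) A.ι_cover A.sec
    fun _ _ _ a b h => A.res_eq_of_comp_ι a b h

/-- The universal section. -/
def universal (hglue : Glues G) : G.obj (op A.obj) := (A.sec_glue hglue).choose

lemma res_universal (hglue : Glues G) (i : A.I) :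
    res G (A.ι i) (A.universal hglue) = A.sec i :=
  (A.sec_glue hglue).choose_spec i

lemma exists_classifying (hsep : Separated G) (hglue : Glues G) {T : Over S}
    (x : G.obj (op T)) : ∃ g : T ⟶ A.obj, res G g (A.universal hglue) = x := by
  have hcov : ∀ p : T.left, ∃ i, p ∈ A.loc i x := fun p => by
    obtain ⟨i, T', g, hp, hg⟩ := A.cover x p
    exact ⟨i, (A.loc_spec i x g).1 hg hp⟩
  let 𝒰 : T.left.OpenCover := Scheme.openCoverOfIsOpenCover T.left (fun i => A.loc i x)
    (SetLike.coe_injective (Set.eq_univ_of_forall fun p => by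
      simpa using hcov p))
  let f : ∀ i, 𝒰.X i ⟶ A.obj.left := fun i => (A.toChart i x ≫ A.ι i).left
  have hf : ∀ i j, pullback.fst (𝒰.f i) (𝒰.f j) ≫ f i = pullback.snd _ _ ≫ f j := fun i j => by
    let V : Over S := Over.mk (pullback.fst (𝒰.f i) (𝒰.f j) ≫ 𝒰.f i ≫ T.hom)
    let a : V ⟶ openObj T (A.loc i x) := Over.homMk (pullback.fst (𝒰.f i) (𝒰.f j)) rfl
    let b : V ⟶ openObj T (A.loc j x) := Over.homMk (pullback.snd (𝒰.f i) (𝒰.f j))
      (by
        show pullback.snd (𝒰.f i) (𝒰.f j) ≫ 𝒰.f j ≫ T.hom = _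
        rw [← Category.assoc, ← pullback.condition, Category.assoc]; rfl)
    have hab : a ≫ openHom T _ = b ≫ openHom T _ := Over.OverMorphism.ext pullback.condition
    have h1 : res G (a ≫ A.toChart i x) (A.sec i) = res G (b ≫ A.toChart j x) (A.sec j) := by
      rw [res_comp, A.res_toChart, ← res_comp, hab, res_comp, ← A.res_toChart, ← res_comp]
    exact congrArg CommaMorphism.left
      (((Category.assoc a _ _).symm.trans (A.comp_ι_eq _ _ h1)).trans (Category.assoc b _ _))
  have hw : 𝒰.glueMorphisms f hf ≫ A.glueHom = T.hom := 𝒰.hom_ext _ _ fun i => by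
    rw [← Category.assoc, 𝒰.ι_glueMorphisms]
    exact Over.w (A.toChart i x ≫ A.ι i)
  refine ⟨Over.homMk (𝒰.glueMorphisms f hf) hw, ?_⟩
  refine hsep T (fun i => openObj T (A.loc i x)) (fun i => openHom T _)
    (fun i => inferInstanceAs (IsOpenImmersion (A.loc i x).ι))
    (fun p => (hcov p).imp fun i hi => ⟨⟨p, hi⟩, rfl⟩) _ _ fun i => ?_
  have he : openHom T (A.loc i x) ≫ Over.homMk (𝒰.glueMorphisms f hf) hw =
      A.toChart i x ≫ A.ι i := Over.OverMorphism.ext (𝒰.ι_glueMorphisms f hf i)
  rw [← res_comp, he, res_comp, res_universal, res_toChart]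

lemma classifying_unique (hglue : Glues G) {T : Over S} (g g' : T ⟶ A.obj)
    (h : res G g (A.universal hglue) = res G g' (A.universal hglue)) : g = g' := by
  refine Over.OverMorphism.ext (Scheme.hom_ext_of_forall _ _ fun p => ?_)
  obtain ⟨i, hi⟩ := A.ι_cover (g.left p)
  obtain ⟨j, hj⟩ := A.ι_cover (g'.left p)
  refine ⟨g.left ⁻¹ᵁ (A.ι i).left.opensRange ⊓ g'.left ⁻¹ᵁ (A.ι j).left.opensRange,
    ⟨hi, hj⟩, ?_⟩
  generalize hU : g.left ⁻¹ᵁ (A.ι i).left.opensRange ⊓ g'.left ⁻¹ᵁ (A.ι j).left.opensRange = U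
  have hr : Set.range (openHom T U ≫ g).left ⊆ Set.range (A.ι i).left := by
    rintro _ ⟨⟨q, hq⟩, rfl⟩
    rw [← hU] at hq
    exact hq.1
  have hr' : Set.range (openHom T U ≫ g').left ⊆ Set.range (A.ι j).left := by
    rintro _ ⟨⟨q, hq⟩, rfl⟩
    rw [← hU] at hq
    exact hq.2
  let a : openObj T U ⟶ A.X i := Over.homMk (IsOpenImmersion.lift (A.ι i).left _ hr)
    (by rw [← Over.w (A.ι i), ← Category.assoc, IsOpenImmersion.lift_fac]
        exact Over.w (openHom T U ≫ g))
  let b : openObj T U ⟶ A.X j := Over.homMk (IsOpenImmersion.lift (A.ι j).left _ hr')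
    (by rw [← Over.w (A.ι j), ← Category.assoc, IsOpenImmersion.lift_fac]
        exact Over.w (openHom T U ≫ g'))
  have ha : a ≫ A.ι i = openHom T U ≫ g := Over.OverMorphism.ext (IsOpenImmersion.lift_fac _ _ _)
  have hb : b ≫ A.ι j = openHom T U ≫ g' := Over.OverMorphism.ext (IsOpenImmersion.lift_fac _ _ _)
  have h1 : res G a (A.sec i) = res G b (A.sec j) := by
    rw [← A.res_universal hglue i, ← A.res_universal hglue j, ← res_comp, ← res_comp, ha, hb,
      res_comp, res_comp, h]
  exact congrArg CommaMorphism.left (ha.symm.trans ((A.comp_ι_eq a b h1).trans hb))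

end Atlas

/-- **Local representability over a base.** -/
theorem exists_representing (hsep : Separated G) (hglue : Glues G) (A : Atlas G) :
    ∃ (Y : Over S) (y : G.obj (op Y)),
      ∀ (T : Over S) (x : G.obj (op T)), ∃! g : T ⟶ Y, res G g y = x :=
  ⟨A.obj, A.universal hglue, fun T x => by
    obtain ⟨g, hg⟩ := A.exists_classifying hsep hglue x
    exact ⟨g, hg, fun g' hg' => A.classifying_unique hglue g' g (hg'.trans hg.symm)⟩⟩

end Fermat.Agent.Row24

end
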