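import Fermat.Prelude.Def_AlgebraicGeometry_RelativePicardFunctor
import Fermat.Prelude.Def_AlgebraicGeometry_RepresentsRelSubPic
import Fermat.Prelude.Def_AlgebraicGeometry_RelPicardAlgEquivZeroCut
import Fermat.Agent.Row24.Glue

/-!
# Representability of a Picard condition from an atlas

Gluing of rigidified bundles, locality of the condition and an atlas of charts give
`RepresentsRelSubPic`.
-/

set_option autoImplicit false

universe w u

open CategoryTheory CategoryTheory.Limits AlgebraicGeometry Opposite NeronModelInfra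
  GoodReductionJacobian
open AlgebraicGeometry.RelPicard

noncomputable section

namespace Fermat.Agent.Row24

section Opens

variable {S : Scheme.{u}} (G : (Over S)ᵒᵖ ⥤ Type w)

/-- Separatedness for covers by open subsets. -/
def SeparatedOpens : Prop :=
  ∀ (T : Over S) {ι : Type u} (U : ι → T.left.Opens), (∀ p : T.left, ∃ i, p ∈ U i) →
    ∀ x x' : G.obj (op T), (∀ i, res G (openHom T (U i)) x = res G (openHom T (U i)) x') → x = x'

/-- Gluing for covers by open subsets. -/
def GluesOpens : Prop :=
  ∀ (T : Over S) {ι : Type u} (U : ι → T.left.Opens), (∀ p : T.left, ∃ i, p ∈ U i) →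
    ∀ x : ∀ i, G.obj (op (openObj T (U i))),
      (∀ (i j : ι) (V : Over S) (a : V ⟶ openObj T (U i)) (b : V ⟶ openObj T (U j)),
        a ≫ openHom T (U i) = b ≫ openHom T (U j) → res G a (x i) = res G b (x j)) →
      ∃ y : G.obj (op T), ∀ i, res G (openHom T (U i)) y = x i

variable {G}

/-- The inverse on the range of an open immersion. -/
def fromRange {T W : Over S} (e : W ⟶ T) [IsOpenImmersion e.left] :
    openObj T e.left.opensRange ⟶ W :=
  Over.homMk (IsOpenImmersion.lift e.left e.left.opensRange.ι (by simp)) (by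
    rw [← Over.w e, ← Category.assoc, IsOpenImmersion.lift_fac]; rfl)

lemma fromRange_comp {T W : Over S} (e : W ⟶ T) [IsOpenImmersion e.left] :
    fromRange e ≫ e = openHom T e.left.opensRange :=
  Over.OverMorphism.ext (IsOpenImmersion.lift_fac _ _ _)

/-- The map onto the range of an open immersion. -/
def toRange {T W : Over S} (e : W ⟶ T) [IsOpenImmersion e.left] :
    W ⟶ openObj T e.left.opensRange :=
  liftOpen _ e (by simp)

lemma toRange_fromRange {T W : Over S} (e : W ⟶ T) [IsOpenImmersion e.left] :
    toRange e ≫ fromRange e = 𝟙 W := by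
  have h : (toRange e ≫ fromRange e) ≫ e = 𝟙 W ≫ e := by
    rw [Category.assoc, fromRange_comp, toRange, liftOpen_openHom, Category.id_comp]
  exact Over.OverMorphism.ext ((cancel_mono e.left).1 (congrArg CommaMorphism.left h))

theorem SeparatedOpens.separated (h : SeparatedOpens G) : Separated G := by
  intro T ι W e he hcov x x' hxx
  refine h T (fun i => (e i).left.opensRange) (fun p => (hcov p).imp fun i hi => hi) x x' fun i => ?_
  have := he i
  rw [← fromRange_comp (e i), res_comp, res_comp, hxx i]

theorem GluesOpens.glues (h : GluesOpens G) : Glues G := by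
  intro T ι W e he hcov x hx
  obtain ⟨y, hy⟩ := h T (fun i => (e i).left.opensRange) (fun p => (hcov p).imp fun i hi => hi)
    (fun i => res G (fromRange (e i)) (x i)) fun i j V a b hab => by
      rw [← res_comp, ← res_comp]
      exact hx i j V _ _ (by rw [Category.assoc, fromRange_comp, hab, Category.assoc, fromRange_comp])
  refine ⟨y, fun i => ?_⟩
  have := he i
  have h1 := congrArg (res G (toRange (e i))) (hy i)
  rw [← res_comp, ← res_comp, toRange_fromRange, res_id, toRange, liftOpen_openHom] at h1
  exact h1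

end Opens

variable {R : Type u} [CommRing R] {C : Scheme.{u}} {c : C ⟶ Spec (CommRingCat.of R)}
  {ε : SchemeHomOver (𝟙 (Spec (CommRingCat.of R))) c}

/-- A morphism over the base as a morphism over the base. -/
abbrev homOver {T T' : Over (Spec (CommRingCat.of R))} (g : T' ⟶ T) :
    SchemeHomOver T'.hom T.hom :=
  ⟨g.left, Over.w g⟩

variable (P : SubPicCondition c ε)

/-- A class satisfies the condition. -/
def classMem {T : Over (Spec (CommRingCat.of R))} :
    RigidifiedLineBundle.Classes c ε T.hom → Prop :=
  Quotient.lift (P.P T.hom) fun M M' h =>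
    propext ⟨P.congr _ M M' h, P.congr _ M' M ⟨h.some.symm⟩⟩

/-- The presheaf of classes satisfying the condition. -/
def subPresheaf : (Over (Spec (CommRingCat.of R)))ᵒᵖ ⥤ Type (u + 1) where
  obj X := {x : (relPicardPresheaf c ε).obj X // classMem P (T := X.unop) x}
  map {X X'} φ := TypeCat.ofHom fun x => ⟨(relPicardPresheaf c ε).map φ x.1, by
    obtain ⟨x, hx⟩ := x
    induction x using Quotient.ind with
    | _ M => exact P.pullback_mem _ _ _ M hx⟩
  map_id X := TypeCat.homEquiv.injective (funext fun x => Subtype.ext (by simp))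
  map_comp {X X' X''} φ χ := TypeCat.homEquiv.injective (funext fun x => Subtype.ext (by simp))

lemma res_subPresheaf_val {T T' : Over (Spec (CommRingCat.of R))} (g : T' ⟶ T)
    (x : (subPresheaf P).obj (op T)) :
    (res (subPresheaf P) g x).1 = res (relPicardPresheaf c ε) g x.1 := rfl

/-- The condition is local on the test object. -/
def IsLocalCondition : Prop :=
  ∀ (T : Over (Spec (CommRingCat.of R))) {ι : Type u} (U : ι → T.left.Opens),
    (∀ p : T.left, ∃ i, p ∈ U i) → ∀ M : RigidifiedLineBundle c ε T.hom,
      (∀ i, P.P _ (M.pullbackAlong (homOver (openHom T (U i))))) → P.P _ M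

theorem separatedOpens_sub (h : SeparatedOpens (relPicardPresheaf c ε)) :
    SeparatedOpens (subPresheaf P) := by
  intro T ι U hU x x' hxx
  exact Subtype.ext (h T U hU x.1 x'.1 fun i => congrArg Subtype.val (hxx i))

theorem gluesOpens_sub (h : GluesOpens (relPicardPresheaf c ε)) (hP : IsLocalCondition P) :
    GluesOpens (subPresheaf P) := by
  intro T ι U hU x hx
  obtain ⟨y, hy⟩ := h T U hU (fun i => (x i).1) fun i j V a b hab =>
    congrArg Subtype.val (hx i j V a b hab)
  induction y using Quotient.ind with
  | _ M =>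
    have hM : classMem P (T := T) (Quotient.mk _ M) := hP T U hU M fun i => by
      have h1 := (x i).2
      rw [← hy i] at h1
      exact h1
    exact ⟨⟨Quotient.mk _ M, hM⟩, fun i => Subtype.ext (hy i)⟩

/-- An atlas of charts for a condition, in terms of bundles. -/
structure PicAtlas where
  /-- the index type -/
  I : Type u
  /-- the charts -/
  X : I → Over (Spec (CommRingCat.of R))
  /-- the bundles on the charts -/
  M : ∀ i, RigidifiedLineBundle c ε (X i).hom
  /-- they satisfy the condition -/
  mem : ∀ i, P.P _ (M i)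
  /-- a morphism to a chart is determined by its bundle -/
  inj : ∀ (i : I) {T : Over (Spec (CommRingCat.of R))} (g g' : T ⟶ X i),
    Nonempty (((M i).pullbackAlong (homOver g)).L ≅ ((M i).pullbackAlong (homOver g')).L) → g = g'
  /-- the locus of a chart is open and universal -/
  locus : ∀ (i : I) {T : Over (Spec (CommRingCat.of R))} (N : RigidifiedLineBundle c ε T.hom),
    P.P _ N → ∃ U : T.left.Opens, ∀ {T' : Over (Spec (CommRingCat.of R))} (g : T' ⟶ T),
      (∃ h : T' ⟶ X i,
        Nonempty (((M i).pullbackAlong (homOver h)).L ≅ (N.pullbackAlong (homOver g)).L)) ↔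
        Set.range g.left ⊆ (U : Set T.left)
  /-- the loci cover -/
  cover : ∀ {T : Over (Spec (CommRingCat.of R))} (N : RigidifiedLineBundle c ε T.hom), P.P _ N →
    ∀ p : T.left, ∃ (i : I) (T' : Over (Spec (CommRingCat.of R))) (g : T' ⟶ T),
      p ∈ Set.range g.left ∧ ∃ h : T' ⟶ X i,
        Nonempty (((M i).pullbackAlong (homOver h)).L ≅ (N.pullbackAlong (homOver g)).L)

variable {P}

lemma res_mk_eq_iff {T₁ T₂ T' : Over (Spec (CommRingCat.of R))} (g : T' ⟶ T₁) (g' : T' ⟶ T₂)
    (M : RigidifiedLineBundle c ε T₁.hom) (N : RigidifiedLineBundle c ε T₂.hom)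
    (hM : P.P _ M) (hN : P.P _ N) :
    res (subPresheaf P) g ⟨Quotient.mk _ M, hM⟩ = res (subPresheaf P) g' ⟨Quotient.mk _ N, hN⟩ ↔
      Nonempty ((M.pullbackAlong (homOver g)).L ≅ (N.pullbackAlong (homOver g')).L) := by
  exact ⟨fun h => Quotient.exact (congrArg Subtype.val h), fun h => Subtype.ext (Quotient.sound h)⟩

/-- The atlas of the presheaf. -/
def PicAtlas.toAtlas (A : PicAtlas P) : Atlas (subPresheaf P) where
  I := A.I
  X := A.X
  sec i := ⟨Quotient.mk _ (A.M i), A.mem i⟩
  inj i _ g g' h := A.inj i g g' ((res_mk_eq_iff g g' _ _ _ _).1 h)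
  locus i T x := by
    obtain ⟨x, hx⟩ := x
    induction x using Quotient.ind with
    | _ N =>
      obtain ⟨U, hU⟩ := A.locus i N hx
      exact ⟨U, fun g => ⟨fun ⟨h, e⟩ => (hU g).1 ⟨h, (res_mk_eq_iff h g _ _ _ _).1 e⟩,
        fun hr => ((hU g).2 hr).imp fun h e => (res_mk_eq_iff h g _ _ _ _).2 e⟩⟩
  cover {T} x p := by
    obtain ⟨x, hx⟩ := x
    induction x using Quotient.ind with
    | _ N =>
      obtain ⟨i, T', g, hp, h, e⟩ := A.cover N hx p
      exact ⟨i, T', g, hp, h, (res_mk_eq_iff h g _ _ _ _).2 e⟩

/-- **Representability from gluing and an atlas.** -/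
theorem exists_representsRelSubPic (hsep : SeparatedOpens (relPicardPresheaf c ε))
    (hglue : GluesOpens (relPicardPresheaf c ε)) (hP : IsLocalCondition P) (A : PicAtlas P) :
    ∃ D : RelativePic0Designation R c, Nonempty (RepresentsRelSubPic c ε P D) := by
  obtain ⟨Y, ⟨y, hy⟩, huniv⟩ := exists_representing (subPresheaf P)
    (separatedOpens_sub P hsep).separated (gluesOpens_sub P hglue hP).glues A.toAtlas
  obtain ⟨M, rfl⟩ := Quotient.exists_rep y
  have huniv' : ∀ {T : Scheme.{u}} (t : T ⟶ Spec (CommRingCat.of R))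
      (N : RigidifiedLineBundle c ε t), P.P t N →
      ∃! g : SchemeHomOver t Y.hom, Nonempty ((M.pullbackAlong g).L ≅ N.L) := by
    intro T t N hN
    obtain ⟨g, hg, hg'⟩ := huniv (Over.mk t) ⟨Quotient.mk _ N, hN⟩
    refine ⟨homOver g, Quotient.exact (congrArg Subtype.val hg), fun g' e => ?_⟩
    have h := hg' (Over.homMk g'.1 g'.2) (Subtype.ext (Quotient.sound e))
    rw [← h]; rfl
  obtain ⟨z, hz, -⟩ := huniv' (𝟙 _) (RigidifiedLineBundle.unit (𝟙 _)) (P.unit_mem _)
  exact ⟨⟨Y.left, Y.hom, z.1, z.2⟩, ⟨⟨M, hy, fun t N hN => huniv' t N hN, hz⟩⟩⟩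

/-- Fibrewise algebraic equivalence to zero is local on the test object. -/
theorem isLocalCondition_algEquivZeroCut : IsLocalCondition (algEquivZeroCut c ε) := by
  intro T ι U hU M hM k _ _ s
  obtain ⟨i, hi⟩ := hU (s (IsLocalRing.closedPoint k))
  have hr : Set.range s ⊆ Set.range (U i).ι := by
    rintro _ ⟨q, rfl⟩
    rw [Subsingleton.elim q (IsLocalRing.closedPoint k), Scheme.Opens.range_ι]
    exact hi
  set s' := IsOpenImmersion.lift (U i).ι s hr
  have hs : s' ≫ (U i).ι = s := IsOpenImmersion.lift_fac _ _ _
  set ψ := homOver (openHom T (U i))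
  let e : pullback (pullback.snd c T.hom) s ⟶
      pullback (pullback.snd c (openObj T (U i)).hom) s' :=
    pullback.lift
      (pullback.lift (pullback.fst (pullback.snd c T.hom) s ≫ pullback.fst c T.hom)
        (pullback.snd (pullback.snd c T.hom) s ≫ s') (by
          show _ = _ ≫ (U i).ι ≫ T.hom
          rw [Category.assoc, Category.assoc, ← Category.assoc s', hs, pullback.condition,
            pullback.condition_assoc]))
      (pullback.snd _ _) (pullback.lift_snd _ _ _)
  have he : e ≫ fibreAt c (openObj T (U i)).hom s' = fibreAt c T.hom s := pullback.lift_snd _ _ _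
  have hfst : e ≫ pullback.fst _ _ ≫ baseChangeSnd c ψ =
      pullback.fst (pullback.snd c T.hom) s := by
    refine pullback.hom_ext ?_ ?_
    · simp only [Category.assoc, baseChangeSnd, pullback.lift_fst, Category.comp_id]
      rw [← Category.assoc]
      simp only [e, pullback.lift_fst]
    · simp only [Category.assoc, baseChangeSnd, pullback.lift_snd]
      rw [← Category.assoc e, pullback.lift_fst, ← Category.assoc, pullback.lift_snd, pullback.condition]
      exact (Category.assoc _ _ _).trans (congrArg _ hs)
  refine IsAlgEquivZero.of_iso ?_ (IsAlgEquivZero.pullback e he (hM i k s'))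
  exact (Scheme.Modules.pullback e).mapIso ((Scheme.Modules.pullbackComp _ _).app M.L) ≪≫
    (Scheme.Modules.pullbackComp _ _).app M.L ≪≫
    (Scheme.Modules.pullbackCongr hfst).app M.L

end Fermat.Agent.Row24

end
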