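import Fermat.Agent.Row24.Main
import Fermat.Agent.Row24.Atlas.Invariant
import Fermat.Agent.Row24.Euler.Invariant
import Fermat.Agent.Row24.Dict.Main

/-!
# The Jacobian from chart theory, twists and point classes
-/

set_option autoImplicit false

universe u

open CategoryTheory CategoryTheory.Limits AlgebraicGeometry AlgebraicGeometry.RelPicard
  NeronModelInfra GoodReductionJacobian

noncomputable section

namespace Fermat.Agent.Row24

open Chart

/-- **The Jacobian from the chart theory, the twists and the classes of points.** -/
theorem exists_jacobian_of_theories {k : Type u} [Field k] [IsAlgClosed k] {C : Scheme.{u}}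
    {c : C ⟶ Spec (CommRingCat.of k)} [IsProper c] [IsIntegral C]
    {ε : SchemeHomOver (𝟙 (Spec (CommRingCat.of k))) c} {R : CurveRings k}
    (m : Dict.ChartModel c R) (hb : m.Based ε) (T : TwistTheory R)
    (H : ∀ b, ChartTheory R b)
    (hcov : ∀ (K : Type u) [Field K] [Algebra k K] (L : Glued R K), L.chi = 1 - R.g →
      ∃ (D : T.Tw) (b : Fin R.g → R.B1), (T.twist L D).ChartCond b ∧
        ∀ (K' : Type u) [Field K'] [Algebra k K'] (L' : Glued R K'),
          (T.twist L' D).ChartCond b → L'.chi = 1 - R.g)
    (α : RigidifiedLineBundle.Classes c ε c)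
    (hα : RigidifiedLineBundle.classesMap ε α = unitCls _)
    (G : SchemeHomOver (Dict.affStr k k) c → Glued R k)
    (hG : ∀ p, ∃ M : RigidifiedLineBundle c ε (Dict.affStr k k),
      Quotient.mk _ M = RigidifiedLineBundle.classesMap p α ∧
        Nonempty (Glued.Iso ((Dict.dictionary hb).glued k M) (G p)))
    (hdec : ∀ N : Glued R k, N.chi = 1 - R.g →
      ∃ l : List (SchemeHomOver (Dict.affStr k k) c),
        Nonempty (Glued.Iso N (l.foldl (fun b p => b.diff (G p)) (Glued.trivial R k)))) :
    ∃ D : RelativePic0Designation k c,
      Nonempty (RepresentsRelSubPic c ε (algEquivZeroCut c ε) D) ∧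
        Smooth D.toBase ∧ IsProper D.toBase ∧ GeometricallyConnected D.toBase :=
  exists_jacobian_of_decomposition (Dict.dictionary hb) (isFieldInvariant_chi R)
    (isLocallyConstantInvariant_chi R) (1 - R.g) (chiInvariant_trivial R)
    (invariantAtlas (Dict.dictionary hb) T H (isFieldInvariant_chi R) (1 - R.g)
      (chiInvariant_trivial R) fun K _ _ L _ h => hcov K L h)
    α hα G hG fun _ h => hdec _ h

end Fermat.Agent.Row24

end
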