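import Fermat.Agent.Row24.Final
import Fermat.Agent.Row24.Atlas.Covering
import Fermat.Agent.Row24.Curve.Rings
import Fermat.Agent.Row24.Chart.Main
import Fermat.Agent.Row24.Chart.PointDown
import Fermat.Agent.Row24.Abel.Point

/-!
# The Jacobian from the covering of bundles by charts
-/

set_option autoImplicit false

universe u

open CategoryTheory CategoryTheory.Limits AlgebraicGeometry AlgebraicGeometry.RelPicard
  NeronModelInfra GoodReductionJacobian

noncomputable section

namespace Fermat.Agent.Row24

open Chart

/-- **The Jacobian**, given that twisted charts cover the bundles with `χ = 1 - g`. -/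
theorem exists_jacobian_of_cover {k : Type u} [Field k] [IsAlgClosed k] {C : Scheme.{u}}
    (c : C ⟶ Spec (CommRingCat.of k)) [IsProper c] [SmoothOfRelativeDimension 1 c] [IsIntegral C]
    (ε : SchemeHomOver (𝟙 (Spec (CommRingCat.of k))) c)
    (hcov : ∀ (R : CurveRings k) (K : Type u) [Field K] [Algebra k K] (L : Glued R K),
      L.chi = 1 - R.g → ∃ (D : Twist R) (b : Fin R.g → R.B1), (L.twist D).ChartCond b ∧
        ∀ (K' : Type u) [Field K'] [Algebra k K'] (L' : Glued R K'),
          (L'.twist D).ChartCond b → L'.chi = 1 - R.g) :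
    ∃ D : RelativePic0Designation k c,
      Nonempty (RepresentsRelSubPic c ε (algEquivZeroCut c ε) D) ∧
        Smooth D.toBase ∧ IsProper D.toBase ∧ GeometricallyConnected D.toBase := by
  obtain ⟨R, m, hb⟩ := Curve.exists_chartModel c ε
  obtain ⟨α, hα, hG⟩ := Abel.exists_abelClass (m := m) (Dict.dictionary hb) hb
  exact exists_jacobian_of_theories m hb (twistTheory R) (fun b => chartTheory b) (hcov R) α hα
    (Abel.pointBundle m) hG fun N hN =>
      Glued.exists_foldl_of_pt1 (Abel.exists_pointBundle_iso m) N hN

end Fermat.Agent.Row24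

end
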