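import Fermat.Agent.Row24.Glue.Sheaf
import Fermat.Agent.Row24.GlobalFunctions
import Fermat.Agent.Row24.SheafAdapter

/-!
# Rigidified line bundles on a proper integral curve form a Zariski sheaf
-/

set_option autoImplicit false

universe u

open CategoryTheory CategoryTheory.Limits AlgebraicGeometry AlgebraicGeometry.RelPicard
  NeronModelInfra GoodReductionJacobian

noncomputable section

namespace Fermat.Agent.Row24

variable {k : Type u} [Field k] [IsAlgClosed k] {C : Scheme.{u}}
  (c : C ⟶ Spec (CommRingCat.of k)) [IsProper c] [IsIntegral C]
  (ε : SchemeHomOver (𝟙 (Spec (CommRingCat.of k))) c)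

theorem bundlesSeparated_of_proper : BundlesSeparated c ε := fun {_} t _ U hU M M' h =>
  Glue.classes_ext (bijective_app_snd c t) U hU M M' h

theorem bundlesGlue_of_proper : BundlesGlue c ε := fun {_} t _ U hU M h =>
  Glue.classes_glue (bijective_app_snd c t) U hU M h

end Fermat.Agent.Row24

end
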