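import Fermat.Agent.Row24.Assembly
import Fermat.Agent.Row24.PicSheaf
import Fermat.Agent.Row24.Euler.Constancy
import Fermat.Agent.Row24.Crit.LiftBundles
import Fermat.Agent.Row24.Proper.Diff
import Fermat.Agent.Row24.Proper.Main
import Fermat.Agent.Row24.Proper.Jacobian

/-!
# The Jacobian from an invariant, an atlas and an Abel class

Given a dictionary, a locally constant invariant of glued bundles, an atlas of its level set and
an Abel class generating the rational classes, the algebraically trivial cut is represented by a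
smooth, proper, geometrically connected scheme.
-/

set_option autoImplicit false

universe u

open CategoryTheory CategoryTheory.Limits AlgebraicGeometry AlgebraicGeometry.RelPicard
  NeronModelInfra GoodReductionJacobian

noncomputable section

namespace Fermat.Agent.Row24

open Chart

/-- **The Jacobian from a dictionary, an invariant, an atlas and an Abel class.** -/
theorem exists_jacobian_of_atlas {k : Type u} [Field k] [IsAlgClosed k] {C : Scheme.{u}}
    {c : C ⟶ Spec (CommRingCat.of k)} [IsProper c] [IsIntegral C]
    {ε : SchemeHomOver (𝟙 (Spec (CommRingCat.of k))) c} {R : CurveRings k}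
    (Δ : Dict.Dictionary c ε R)
    {χ : ∀ (F : Type u) [Field F] [Algebra k F], Glued R F → ℤ} (hinv : IsFieldInvariant χ)
    (hloc : IsLocallyConstantInvariant χ) (n₀ : ℤ)
    (hn₀ : ∀ (F : Type u) [Field F] [Algebra k F], χ F (Glued.trivial R F) = n₀)
    (A : PicAffineAtlas (pointCut (invariantProperty Δ χ hinv n₀ hn₀)))
    (α : RigidifiedLineBundle.Classes c ε c)
    (hα : RigidifiedLineBundle.classesMap ε α = unitCls _)
    (hgen : ∀ x : RigidifiedLineBundle c ε (𝟙 (Spec (CommRingCat.of k))),
      (pointCut (invariantProperty Δ χ hinv n₀ hn₀)).P _ x →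
      ∃ l : List (SchemeHomOver (𝟙 (Spec (CommRingCat.of k))) c),
        l.foldl (fun b p => (Δ.classDiff (bundlesSeparated_of_proper c ε)
            (bundlesGlue_of_proper c ε)).diff _ b (RigidifiedLineBundle.classesMap p α))
          (unitCls _) = Quotient.mk _ x) :
    ∃ D : RelativePic0Designation k c,
      Nonempty (RepresentsRelSubPic c ε (algEquivZeroCut c ε) D) ∧
        Smooth D.toBase ∧ IsProper D.toBase ∧ GeometricallyConnected D.toBase := by
  have hQ := fun {T : Scheme.{u}} (t : T ⟶ Spec (CommRingCat.of k))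
    (M : RigidifiedLineBundle c ε t) (hM : FibrewiseAlgEquivZero M) =>
      fibrewiseAlgEquivZero_le_invariantCut Δ hinv hloc n₀ hn₀ t M hM
  refine exists_jacobian_of (bundlesSeparated_of_proper c ε) (bundlesGlue_of_proper c ε) _ hQ A
    (fun B _ _ I hI M => Crit.exists_bundle_lift Δ B I hI M) ?_
  intro D₀ D _ h hfp hgi hs e he he' hfac
  have : LocallyOfFiniteType D.toBase := by
    rw [← hfac]; infer_instance
  have := geometricallyIntegral_of_isIntegral c
  exact isProper_of_classDiff h (Δ.classDiff _ _) α hα fun g =>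
    hgen _ (hQ _ _ (FibrewiseAlgEquivZero.pullback g h.poincare_mem))

/-- **The Jacobian from a dictionary, an invariant, an atlas and a decomposition of the rational
classes into point classes.** -/
theorem exists_jacobian_of_decomposition {k : Type u} [Field k] [IsAlgClosed k] {C : Scheme.{u}}
    {c : C ⟶ Spec (CommRingCat.of k)} [IsProper c] [IsIntegral C]
    {ε : SchemeHomOver (𝟙 (Spec (CommRingCat.of k))) c} {R : CurveRings k}
    (Δ : Dict.Dictionary c ε R)
    {χ : ∀ (F : Type u) [Field F] [Algebra k F], Glued R F → ℤ} (hinv : IsFieldInvariant χ)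
    (hloc : IsLocallyConstantInvariant χ) (n₀ : ℤ)
    (hn₀ : ∀ (F : Type u) [Field F] [Algebra k F], χ F (Glued.trivial R F) = n₀)
    (A : PicAffineAtlas (pointCut (invariantProperty Δ χ hinv n₀ hn₀)))
    (α : RigidifiedLineBundle.Classes c ε c)
    (hα : RigidifiedLineBundle.classesMap ε α = unitCls _)
    (G : SchemeHomOver (Dict.affStr k k) c → Glued R k)
    (hG : ∀ p, ∃ M : RigidifiedLineBundle c ε (Dict.affStr k k),
      Quotient.mk _ M = RigidifiedLineBundle.classesMap p α ∧
        Nonempty (Glued.Iso (Δ.glued k M) (G p)))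
    (hdec : ∀ M : RigidifiedLineBundle c ε (Dict.affStr k k), χ k (Δ.glued k M) = n₀ →
      ∃ l : List (SchemeHomOver (Dict.affStr k k) c), Nonempty (Glued.Iso (Δ.glued k M)
        (l.foldl (fun b p => b.diff (G p)) (Glued.trivial R k)))) :
    ∃ D : RelativePic0Designation k c,
      Nonempty (RepresentsRelSubPic c ε (algEquivZeroCut c ε) D) ∧
        Smooth D.toBase ∧ IsProper D.toBase ∧ GeometricallyConnected D.toBase := by
  have hQ := fun {T : Scheme.{u}} (t : T ⟶ Spec (CommRingCat.of k))
    (M : RigidifiedLineBundle c ε t) (hM : FibrewiseAlgEquivZero M) =>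
      fibrewiseAlgEquivZero_le_invariantCut Δ hinv hloc n₀ hn₀ t M hM
  have := geometricallyIntegral_of_isIntegral c
  refine exists_jacobian_of (bundlesSeparated_of_proper c ε) (bundlesGlue_of_proper c ε) _ hQ A
    (fun B _ _ I hI M => Crit.exists_bundle_lift Δ B I hI M)
    (isProper_of_decomposition Δ (bundlesSeparated_of_proper c ε) (bundlesGlue_of_proper c ε) hQ α
      hα G hG fun M hM => hdec M ?_)
  have hid : ∀ N : RigidifiedLineBundle c ε (Dict.affStr k k),
      Nonempty ((N.pullbackAlong (⟨𝟙 _, Category.id_comp _⟩ :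
        SchemeHomOver (Dict.affStr k k) (Dict.affStr k k))).L ≅ N.L) := fun N =>
    ⟨(Scheme.Modules.pullbackCongr (baseChangeSnd_id c (Dict.affStr k k))).app N.L ≪≫
      (Scheme.Modules.pullbackId _).app N.L⟩
  have h : (invariantProperty Δ χ hinv n₀ hn₀).holds k (Dict.affStr k k) M := by
    refine (invariantProperty Δ χ hinv n₀ hn₀).holds_congr k _ _ M (hid M) ?_
    exact pointCut_holds _ hM k _
  exact (hinv.eq_of_iso Δ (M := M.pullbackAlong (Dict.toAff k rfl)) (M' := M)
    (hid M)).trans (h rfl)

end Fermat.Agent.Row24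

end
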